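/-
S55 (Poitou-Tate), block G-ARITH.  Local norm groups WITHOUT completions: definitions.

`M'/M` is an extension of number fields (in the applications: cyclic of prime degree `p`, `ζ_p ∈ M`).
* `NR M M'`        : the subgroup of `Mˣ` of global norms from `M'`.
* `NL M M' p ζ v`  : `NR M M' ⊔ LP p ζ v`, the group of elements of `Mˣ` which are LOCAL norms at `v`
  (`LP p ζ v` = local `p`-th powers at `v`, from helper14's CFT library).
  Justification: `b` is a norm from `M' ⊗ M_v` iff it is `v`-adically close to a global norm (weak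
  approximation in `M'`), and the elements close to `1` are local `p`-th powers, hence local norms.
-/
import Fermat.Agent.CFT.HNT
import Fermat.Agent.CFT.Tame
import Fermat.Agent.CFT.LocalPower
import Fermat.Agent.CFT.OrdGal

set_option autoImplicit false
set_option linter.unusedSectionVars false

namespace Fermat.Agent.PT.Arith

open Fermat.Agent.CFT IsDedekindDomain NumberField

variable (M : Type*) [Field M] [NumberField M] (M' : Type*) [Field M'] [NumberField M']
  [Algebra M M']

/-- Global norms. -/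
noncomputable def NR : Subgroup Mˣ := (Units.map (Algebra.norm M : M' →* M)).range

/-- Local norms at `v` (elementary definition). -/
noncomputable def NL (p : ℕ) (ζ : M) (v : Pl M) : Subgroup Mˣ := NR M M' ⊔ LP p ζ v

variable {M M'}

theorem mem_NR_iff (x : Mˣ) : x ∈ NR M M' ↔ ∃ z : M'ˣ, Units.map (Algebra.norm M : M' →* M) z = x :=
  Iff.rfl

theorem norm_mem_NR (z : M'ˣ) : Units.map (Algebra.norm M : M' →* M) z ∈ NR M M' := ⟨z, rfl⟩

theorem NR_le_NL (p : ℕ) (ζ : M) (v : Pl M) : NR M M' ≤ NL M M' p ζ v := le_sup_left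

theorem LP_le_NL (p : ℕ) (ζ : M) (v : Pl M) : LP p ζ v ≤ NL M M' p ζ v := le_sup_right

theorem mem_NL_iff (p : ℕ) (ζ : M) (v : Pl M) (x : Mˣ) :
    x ∈ NL M M' p ζ v ↔
      ∃ z : M'ˣ, ∃ l ∈ LP p ζ v, x = Units.map (Algebra.norm M : M' →* M) z * l := by
  unfold NL
  rw [Subgroup.mem_sup]
  constructor
  · rintro ⟨y, ⟨z, rfl⟩, l, hl, rfl⟩
    exact ⟨z, l, hl, rfl⟩
  · rintro ⟨z, l, hl, rfl⟩
    exact ⟨_, ⟨z, rfl⟩, l, hl, rfl⟩

/-- `p`-th powers are norms in degree `p`. -/
theorem PW_le_NR (p : ℕ) (hdeg : Module.finrank M M' = p) : PW p Mˣ ≤ NR M M' := by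
  rintro x ⟨y, rfl⟩
  refine ⟨Units.map (algebraMap M M' : M →* M') y, ?_⟩
  ext
  simp [Algebra.norm_algebraMap, hdeg]

end Fermat.Agent.PT.Arith
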