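/-
S55 G-ARITH: the group `Cl_S / p` in `ord`-language (target of Koch's map in (FC1)), and the groups
`Σ_S`, `V_S`.   Definitions only.
-/
import Fermat.Agent.PT.Arith.NL
import Fermat.Agent.CFT.SUnitIface

set_option autoImplicit false
set_option linter.unusedSectionVars false

namespace Fermat.Agent.PT.Arith

open Fermat.Agent.CFT IsDedekindDomain NumberField

variable {M : Type*} [Field M] [NumberField M] {M' : Type*} [Field M'] [NumberField M']
  [Algebra M M']

/-- divisors outside `S`, modulo `p`. -/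
abbrev DivS (M : Type*) [Field M] [NumberField M] (p : ℕ) (S : Set (Pl M)) : Type _ :=
  {v : Pl M // v ∉ S} →₀ ZMod p

/-- the divisor (outside `S`, mod `p`) of an element. -/
noncomputable def divS (p : ℕ) (S : Set (Pl M)) : Additive Mˣ →+ DivS M p S where
  toFun x := Finsupp.ofSupportFinite
    (fun v => ((ord v.1 ((Additive.toMul x : Mˣ) : M) : ℤ) : ZMod p)) (by
      refine Set.Finite.subset
        ((finite_ord_ne_zero (Additive.toMul x : Mˣ).ne_zero).preimage
          (Subtype.val_injective.injOn)) ?_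
      intro v hv
      simp only [Function.mem_support] at hv
      simp only [Set.mem_preimage, Set.mem_ofPred_eq]
      intro h
      exact hv (by rw [h]; simp))
  map_zero' := by
    ext v
    simp [Finsupp.ofSupportFinite_coe]
  map_add' x y := by
    ext v
    simp only [Finsupp.ofSupportFinite_coe, Finsupp.coe_add, Pi.add_apply, toMul_add, Units.val_mul]
    rw [ord_mul v.1 (Units.ne_zero _) (Units.ne_zero _)]
    push_cast
    rfl

theorem divS_apply (p : ℕ) (S : Set (Pl M)) (x : Mˣ) (v : {v : Pl M // v ∉ S}) :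
    divS p S (Additive.ofMul x) v = ((ord v.1 (x : M) : ℤ) : ZMod p) := rfl

/-- `Cl_S / p = Div_S / (p, principal divisors)`. -/
abbrev ClModP (M : Type*) [Field M] [NumberField M] (p : ℕ) (S : Set (Pl M)) : Type _ :=
  DivS M p S ⧸ (divS (M := M) p S).range

/-- `Σ_S` : elements whose divisor outside `S` is a `p`-th power. -/
def SigS (M : Type*) [Field M] [NumberField M] (p : ℕ) (S : Set (Pl M)) : Subgroup Mˣ :=
  ⨅ (v : Pl M) (_ : v ∉ S), PD p v

/-- `V_S` : elements of `Σ_S` which are local `p`-th powers at all places of `S`. -/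
noncomputable def VS (p : ℕ) (ζ : M) (S : Set (Pl M)) : Subgroup Mˣ :=
  SigS M p S ⊓ ⨅ v ∈ S, LP p ζ v

theorem mem_SigS_iff (p : ℕ) (S : Set (Pl M)) (x : Mˣ) :
    x ∈ SigS M p S ↔ ∀ v : Pl M, v ∉ S → (p : ℤ) ∣ ord v (x : M) := by
  simp [SigS, Subgroup.mem_iInf, mem_PD_iff]

end Fermat.Agent.PT.Arith
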