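/-
S55 G-ARITH, leaf `ClCountA`: `Cl_S / p` as a cokernel of `S'`-units.
-/
import Fermat.Agent.PT.Arith.ClModP

set_option autoImplicit false
set_option linter.unusedSectionVars false

namespace Fermat.Agent.PT.Arith

open Fermat.Agent.CFT IsDedekindDomain NumberField

variable {M : Type*} [Field M] [NumberField M]

section ClCountA

variable (p : ℕ) (S S' : Set (Pl M))

open Classical in
/-- extension by zero of a function on `R = S' \ S` to a divisor outside `S`. -/
noncomputable def clExt (hS' : S'.Finite) : (↥(S' \ S) → ZMod p) →+ DivS M p S where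
  toFun a := Finsupp.ofSupportFinite
    (fun v => if h : v.1 ∈ S' then a ⟨v.1, h, v.2⟩ else 0) (by
      refine Set.Finite.subset (hS'.preimage (Subtype.val_injective.injOn)) ?_
      intro v hv
      simp only [Function.mem_support] at hv
      simp only [Set.mem_preimage]
      by_contra h
      exact hv (dif_neg h))
  map_zero' := by
    ext v
    simp [Finsupp.ofSupportFinite_coe]
  map_add' a b := by
    ext v
    simp only [Finsupp.ofSupportFinite_coe, Finsupp.coe_add, Pi.add_apply]
    split_ifs <;> simp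

variable {p S S'}

theorem clExt_apply_of_mem (hS' : S'.Finite) (a : ↥(S' \ S) → ZMod p) (v : {v : Pl M // v ∉ S})
    (h : v.1 ∈ S') : clExt p S S' hS' a v = a ⟨v.1, h, v.2⟩ := by
  show (Finsupp.ofSupportFinite _ _ : DivS M p S) v = _
  rw [Finsupp.ofSupportFinite_coe, dif_pos h]

theorem clExt_apply_of_not_mem (hS' : S'.Finite) (a : ↥(S' \ S) → ZMod p)
    (v : {v : Pl M // v ∉ S}) (h : v.1 ∉ S') : clExt p S S' hS' a v = 0 := by
  show (Finsupp.ofSupportFinite _ _ : DivS M p S) v = _
  rw [Finsupp.ofSupportFinite_coe, dif_neg h]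

variable (p S S')

/-- `x ↦ (ord_v x mod p)_{v ∈ R}`. -/
noncomputable def clPhi : Mˣ →* Multiplicative (↥(S' \ S) → ZMod p) where
  toFun x := Multiplicative.ofAdd fun r => ((ord r.1 (x : M) : ℤ) : ZMod p)
  map_one' := by
    rw [← ofAdd_zero]
    congr 1
    funext r
    simp
  map_mul' x y := by
    rw [← ofAdd_add]
    congr 1
    funext r
    rw [Units.val_mul, ord_mul r.1 x.ne_zero y.ne_zero]
    push_cast
    rfl

variable {p S S'}

theorem clPhi_apply (x : Mˣ) (r : ↥(S' \ S)) :
    Multiplicative.toAdd (clPhi p S S' x) r = ((ord r.1 (x : M) : ℤ) : ZMod p) := rfl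

/-- for an `S'`-unit, the divisor outside `S` is the extension by zero of `φ u`. -/
theorem clExt_clPhi (hS' : S'.Finite) {u : Mˣ} (hu : u ∈ SU S') :
    clExt p S S' hS' (Multiplicative.toAdd (clPhi p S S' u)) = divS p S (Additive.ofMul u) := by
  ext v
  rw [divS_apply]
  by_cases h : v.1 ∈ S'
  · rw [clExt_apply_of_mem hS' _ v h, clPhi_apply]
  · rw [clExt_apply_of_not_mem hS' _ v h, (mem_SU_iff S' u).mp hu v.1 h]
    simp

/-- every divisor outside `S` is, modulo principal divisors, supported in `R`. -/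
theorem exists_clExt_sub_mem (hS' : S'.Finite) (hgen : GenCl S') (D : DivS M p S) [NeZero p] :
    ∃ a : ↥(S' \ S) → ZMod p, D - clExt p S S' hS' a ∈ (divS (M := M) p S).range := by
  classical
  induction D using Finsupp.induction_linear with
  | zero => exact ⟨0, by simp⟩
  | add D E hD hE =>
    obtain ⟨a, ha⟩ := hD
    obtain ⟨b, hb⟩ := hE
    refine ⟨a + b, ?_⟩
    rw [map_add, add_sub_add_comm]
    exact add_mem ha hb
  | single v c =>
    by_cases h : v.1 ∈ S'
    · refine ⟨Pi.single ⟨v.1, h, v.2⟩ c, ?_⟩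
      have : Finsupp.single v c - clExt p S S' hS' (Pi.single ⟨v.1, h, v.2⟩ c) = 0 := by
        rw [sub_eq_zero]
        ext w
        by_cases hw : w.1 ∈ S'
        · rw [clExt_apply_of_mem hS' _ w hw, Finsupp.single_apply, Pi.single_apply]
          by_cases hvw : v = w
          · subst hvw
            simp
          · rw [if_neg hvw, if_neg]
            intro h'
            apply hvw
            apply Subtype.ext
            exact (congrArg (fun r : ↥(S' \ S) => r.1) h').symm
        · rw [clExt_apply_of_not_mem hS' _ w hw, Finsupp.single_apply, if_neg]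
          rintro rfl
          exact hw h
      rw [this]
      exact zero_mem _
    · obtain ⟨g, hg1, hg0⟩ := hgen v.1 h
      refine ⟨-(Multiplicative.toAdd (clPhi p S S' (g ^ c.val))), Additive.ofMul (g ^ c.val), ?_⟩
      ext w
      rw [divS_apply, map_neg, sub_neg_eq_add, Finsupp.add_apply, Units.val_pow_eq_pow_val, ord_pow]
      by_cases hw : w.1 ∈ S'
      · rw [clExt_apply_of_mem hS' _ w hw, clPhi_apply, Finsupp.single_apply, if_neg, zero_add,
          Units.val_pow_eq_pow_val, ord_pow]
        rintro rfl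
        exact h hw
      · rw [clExt_apply_of_not_mem hS' _ w hw, add_zero, Finsupp.single_apply]
        by_cases hvw : v = w
        · subst hvw
          rw [if_pos rfl, hg1]
          simp
        · rw [if_neg hvw, hg0 w.1 hw (fun h' => hvw (Subtype.ext h'.symm))]
          simp

/-- clearing the part outside `S'` of an element whose divisor there is divisible by `p`. -/
theorem exists_SU_ord_sub (hgen : GenCl S') (T : Finset (Pl M)) :
    ∀ x : Mˣ, (∀ v, v ∉ S' → ord v (x : M) ≠ 0 → v ∈ T) → (∀ v, v ∉ S' → (p : ℤ) ∣ ord v (x : M)) →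
      ∃ u ∈ SU S', ∀ v : Pl M, (p : ℤ) ∣ ord v (u : M) - ord v (x : M) := by
  classical
  induction T using Finset.induction_on with
  | empty =>
    intro x hx _
    refine ⟨x, (mem_SU_iff S' x).mpr fun v hv => ?_, fun v => by simp⟩
    by_contra h
    exact absurd (hx v hv h) (Finset.notMem_empty v)
  | insert w T _ ih =>
    intro x hx hpx
    by_cases hw : w ∉ S' ∧ ord w (x : M) ≠ 0
    · obtain ⟨hwS, -⟩ := hw
      obtain ⟨g, hg1, hg0⟩ := hgen w hwS
      have hord : ∀ v, ord v ((x * g ^ (-ord w (x : M)) : Mˣ) : M) =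
          ord v (x : M) - ord w (x : M) * ord v (g : M) := by
        intro v
        rw [Units.val_mul, ord_mul v x.ne_zero (Units.ne_zero _), ord_units_zpow]
        ring
      have hA : ∀ v, v ∉ S' → ord v ((x * g ^ (-ord w (x : M)) : Mˣ) : M) ≠ 0 → v ∈ T := by
        intro v hv hne
        rw [hord] at hne
        by_cases hvw : v = w
        · subst hvw
          rw [hg1] at hne
          simp at hne
        · rw [hg0 v hv hvw, mul_zero, sub_zero] at hne
          exact (Finset.mem_insert.mp (hx v hv hne)).resolve_left hvw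
      have hB : ∀ v, v ∉ S' → (p : ℤ) ∣ ord v ((x * g ^ (-ord w (x : M)) : Mˣ) : M) := by
        intro v hv
        rw [hord]
        exact dvd_sub (hpx v hv) (Dvd.dvd.mul_right (hpx w hwS) _)
      obtain ⟨u, hu, huv⟩ := ih (x * g ^ (-ord w (x : M))) hA hB
      refine ⟨u, hu, fun v => ?_⟩
      have h1 := huv v
      rw [hord] at h1
      have h2 : (p : ℤ) ∣ ord w (x : M) * ord v (g : M) := Dvd.dvd.mul_right (hpx w hwS) _
      have h3 := dvd_sub h1 h2
      have h4 : ord v (u : M) - (ord v (x : M) - ord w (x : M) * ord v (g : M)) -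
          ord w (x : M) * ord v (g : M) = ord v (u : M) - ord v (x : M) := by ring
      rwa [h4] at h3
    · refine ih x (fun v hv hne => ?_) hpx
      refine (Finset.mem_insert.mp (hx v hv hne)).resolve_left ?_
      rintro rfl
      exact hw ⟨hv, hne⟩

end ClCountA

/-- `S ⊆ S'` finite, `GenCl S'`, `R = S' \ S`.  Let `φ : U_{S'} → (R → ZMod p)`, `u ↦ (ord_v u mod p)`.
Its kernel is `U_{S'} ∩ Σ_S`.  The natural map `(R → ZMod p) → Div_S/p → ClModP` is
* onto: for `v ∉ S'` take `c` from `GenCl` (`ord_v c = 1`, `ord = 0` at the other places outside `S'`), so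
  the class of `v` equals minus the class of the `R`-part of `div c`;
* with kernel `im φ`: if an `R`-supported divisor is `div_S a` mod `p`, then `p ∣ ord_v a` for `v ∉ S'`;
  multiply `a` by `∏_v (c_v ^ (ord_v a / p)) ^ (-p)` to get an `S'`-unit with the same divisor mod `p`.
Hence `|ClModP| * |im φ| = p ^ |R|`. -/
theorem card_ClModP_mul (p : ℕ) [Fact p.Prime] (S S' : Set (Pl M)) (hSS' : S ⊆ S') (hS' : S'.Finite)
    (hgen : GenCl S') :
    Finite (ClModP M p S) ∧
      Nat.card (ClModP M p S) * (SigS M p S).relIndex (SU S') = p ^ (S' \ S).ncard := by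
  classical
  have hp : p.Prime := Fact.out
  have : NeZero p := ⟨hp.ne_zero⟩
  have hfinR : Finite ↥(S' \ S) := (hS'.subset Set.sdiff_subset).to_subtype
  -- the map `ψ`
  let ψ : (↥(S' \ S) → ZMod p) →+ ClModP M p S :=
    (QuotientAddGroup.mk' (divS (M := M) p S).range).comp (clExt p S S' hS')
  have hψsurj : Function.Surjective ψ := by
    intro q
    obtain ⟨D, rfl⟩ := QuotientAddGroup.mk_surjective q
    obtain ⟨a, ha⟩ := exists_clExt_sub_mem hS' hgen D
    refine ⟨a, ?_⟩
    show (QuotientAddGroup.mk (clExt p S S' hS' a) : ClModP M p S) = QuotientAddGroup.mk D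
    rw [QuotientAddGroup.eq, neg_add_eq_sub]
    exact ha
  have hfin : Finite (ClModP M p S) := Finite.of_surjective ψ hψsurj
  refine ⟨hfin, ?_⟩
  -- counting
  have hcardA : Nat.card (↥(S' \ S) → ZMod p) = p ^ (S' \ S).ncard := by
    rw [Nat.card_fun, Nat.card_zmod, Nat.card_coe_set_eq]
  have h1 : ψ.ker.index = Nat.card (ClModP M p S) := by
    rw [AddSubgroup.index_ker, AddMonoidHom.range_eq_top.mpr hψsurj, AddSubgroup.card_top]
  have h2 := AddSubgroup.index_mul_card ψ.ker
  rw [h1, hcardA] at h2
  rw [← h2]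
  congr 1
  -- the relative index
  have h3 : (SigS M p S).relIndex (SU S') = ((clPhi p S S').ker).relIndex (SU S') := by
    rw [← Subgroup.inf_relIndex_right, ← Subgroup.inf_relIndex_right (clPhi p S S').ker]
    congr 1
    ext x
    simp only [Subgroup.mem_inf, and_congr_left_iff]
    intro hx
    rw [mem_SigS_iff, MonoidHom.mem_ker]
    constructor
    · intro h
      apply Multiplicative.toAdd.injective
      funext r
      rw [clPhi_apply]
      exact (ZMod.intCast_zmod_eq_zero_iff_dvd _ _).mpr (h r.1 r.2.2)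
    · intro h v hv
      by_cases hvS' : v ∈ S'
      · have h4 := congrFun (congrArg Multiplicative.toAdd h) ⟨v, hvS', hv⟩
        rw [clPhi_apply] at h4
        exact (ZMod.intCast_zmod_eq_zero_iff_dvd _ _).mp h4
      · rw [(mem_SU_iff S' x).mp hx v hvS']
        exact dvd_zero _
  rw [h3, Subgroup.relIndex_ker]
  refine Nat.card_congr (Equiv.subtypeEquiv Multiplicative.toAdd fun a => ?_)
  rw [Subgroup.mem_map, AddMonoidHom.mem_ker]
  constructor
  · rintro ⟨u, hu, rfl⟩
    show (QuotientAddGroup.mk (clExt p S S' hS' _) : ClModP M p S) = 0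
    rw [QuotientAddGroup.eq_zero_iff, clExt_clPhi hS' hu]
    exact ⟨_, rfl⟩
  · intro ha
    have ha' : clExt p S S' hS' (Multiplicative.toAdd a) ∈ (divS (M := M) p S).range :=
      (QuotientAddGroup.eq_zero_iff _).mp ha
    obtain ⟨x', hx'⟩ := ha'
    obtain ⟨x, rfl⟩ : ∃ x : Mˣ, Additive.ofMul x = x' := ⟨Additive.toMul x', rfl⟩
    have hpx : ∀ v, v ∉ S' → (p : ℤ) ∣ ord v (x : M) := by
      intro v hv
      have hvS : v ∉ S := fun h => hv (hSS' h)
      have h4 := DFunLike.congr_fun hx' (⟨v, hvS⟩ : {v : Pl M // v ∉ S})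
      rw [divS_apply, clExt_apply_of_not_mem hS' _ _ hv] at h4
      exact (ZMod.intCast_zmod_eq_zero_iff_dvd _ _).mp h4
    obtain ⟨u, hu, huv⟩ := exists_SU_ord_sub (p := p) hgen
      (finite_ord_ne_zero x.ne_zero).toFinset x
      (fun v _ hne => (Set.Finite.mem_toFinset _).mpr hne) hpx
    refine ⟨u, hu, ?_⟩
    apply Multiplicative.toAdd.injective
    funext r
    rw [clPhi_apply]
    have h4 := DFunLike.congr_fun hx' (⟨r.1, r.2.2⟩ : {v : Pl M // v ∉ S})
    rw [divS_apply, clExt_apply_of_mem hS' _ _ r.2.1] at h4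
    rw [← h4]
    exact ((ZMod.intCast_eq_intCast_iff_dvd_sub _ _ _).mpr (huv r.1)).symm

instance finite_ClModP (p : ℕ) [Fact p.Prime] (S : Set (Pl M)) [Finite S] : Finite (ClModP M p S) := by
  obtain ⟨S', hSS', hS', hgen⟩ := exists_GenCl S (Set.toFinite S)
  exact (card_ClModP_mul p S S' hSS' hS' hgen).1

end Fermat.Agent.PT.Arith
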