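/-
S55 G-ARITH, leaf `ClCountB`: the order of `Σ_S / p`.
-/
import Fermat.Agent.PT.Arith.ClCountA

set_option autoImplicit false
set_option linter.unusedSectionVars false

namespace Fermat.Agent.PT.Arith

open Fermat.Agent.CFT IsDedekindDomain NumberField

variable {M : Type*} [Field M] [NumberField M]

theorem ClCountB_ord_prod_zpow {ι : Type*} (v : Pl M) (s : Finset ι) (f : ι → Mˣ) (k : ι → ℤ) :
    ord v ((∏ i ∈ s, f i ^ k i : Mˣ) : M) = ∑ i ∈ s, k i * ord v (f i : M) := by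
  classical
  induction s using Finset.induction_on with
  | empty => simp
  | insert a s ha ih =>
    rw [Finset.prod_insert ha, Finset.sum_insert ha, Units.val_mul,
      ord_mul v (Units.ne_zero _) (Units.ne_zero _), ih, Units.val_zpow_eq_zpow_val, ord_zpow]

/-- An element whose divisor outside `S'` is divisible by `p` is an `S'`-unit times a `p`-th
power. -/
theorem ClCountB_exists_mul_pow_mem_SU {S' : Set (Pl M)} (hgen : GenCl S') (p : ℕ) (hp : p ≠ 0)
    (a : Mˣ) (h : ∀ v : Pl M, v ∉ S' → (p : ℤ) ∣ ord v (a : M)) :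
    ∃ y : Mˣ, a * y ^ p ∈ SU S' := by
  classical
  have hW : {v : Pl M | ord v (a : M) ≠ 0}.Finite := finite_ord_ne_zero a.ne_zero
  let V : Finset (Pl M) := hW.toFinset.filter (· ∉ S')
  let cv : Pl M → Mˣ := fun v => if h : v ∈ S' then 1 else (hgen v h).choose
  have hcv1 : ∀ v, v ∉ S' → ord v (cv v : M) = 1 := by
    intro v hv
    simp only [cv, dif_neg hv]
    exact (hgen v hv).choose_spec.1
  have hcv0 : ∀ v, v ∉ S' → ∀ v', v' ∉ S' → v' ≠ v → ord v' (cv v : M) = 0 := by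
    intro v hv
    simp only [cv, dif_neg hv]
    exact (hgen v hv).choose_spec.2
  let n : Pl M → ℤ := fun v => -(ord v (a : M) / p)
  refine ⟨∏ v ∈ V, cv v ^ n v, ?_⟩
  rw [mem_SU_iff]
  intro w hw
  rw [Units.val_mul, ord_mul w (Units.ne_zero _) (Units.ne_zero _), Units.val_pow_eq_pow_val,
    ord_pow, ClCountB_ord_prod_zpow]
  by_cases hwV : w ∈ V
  · rw [Finset.sum_eq_single_of_mem w hwV, hcv1 w hw, mul_one]
    · obtain ⟨c, hc⟩ := h w hw
      have hp' : (p : ℤ) ≠ 0 := by exact_mod_cast hp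
      simp only [n]
      rw [hc, Int.mul_ediv_cancel_left _ hp']
      ring
    · intro v' hv' hne
      have hv'S : v' ∉ S' := (Finset.mem_filter.mp hv').2
      rw [hcv0 v' hv'S w hw (Ne.symm hne), mul_zero]
  · rw [Finset.sum_eq_zero, mul_zero, add_zero]
    · by_contra hne
      apply hwV
      refine Finset.mem_filter.mpr ⟨?_, hw⟩
      rw [Set.Finite.mem_toFinset]
      exact hne
    · intro v' hv'
      have hv'S : v' ∉ S' := (Finset.mem_filter.mp hv').2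
      have hne : w ≠ v' := fun h => hwV (h ▸ hv')
      rw [hcv0 v' hv'S w hw hne, mul_zero]

theorem ClCountB_mem_SU_of_pow_mem (S : Set (Pl M)) {p : ℕ}
    (hp : p ≠ 0) {c : Mˣ} (hc : c ^ p ∈ SU S) : c ∈ SU S := by
  intro v hv
  have h := hc v hv
  rw [Units.val_pow_eq_pow_val, map_pow] at h
  exact (pow_eq_one_iff.1 h).resolve_right hp

theorem ClCountB_PW_le_SigS (p : ℕ) (S : Set (Pl M)) : PW p Mˣ ≤ SigS M p S := by
  intro x hx
  obtain ⟨y, rfl⟩ := (mem_PW_iff p x).1 hx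
  rw [mem_SigS_iff]
  intro v _
  rw [Units.val_pow_eq_pow_val, ord_pow]
  exact dvd_mul_right _ _

/-- `Σ_S = (U_{S'} ∩ Σ_S) · PW` (same trick with `GenCl S'`), `PW ∩ U_{S'} = U_{S'}^p`
(`mem_SU_of_pow_mem`), `[U_{S'} : U_{S'}^p] = p^(r₂ + |S'|)` (`relIndex_pow_SU`).  Hence
`[Σ_S : PW] * [U_{S'} : U_{S'} ∩ Σ_S] = p^(r₂ + |S'|)`. -/
theorem relIndex_PW_SigS_mul (p : ℕ) [Fact p.Prime] (hp2 : p ≠ 2) (ζ : M) (hζ : IsPrimitiveRoot ζ p)
    (S S' : Set (Pl M)) (hSS' : S ⊆ S') (hS' : S'.Finite) (hgen : GenCl S') :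
    (PW p Mˣ).relIndex (SigS M p S) * (SigS M p S).relIndex (SU S') =
      p ^ (InfinitePlace.nrComplexPlaces M + S'.ncard) := by
  have hp0 : p ≠ 0 := (Fact.out : p.Prime).ne_zero
  have hPS := ClCountB_PW_le_SigS (M := M) p S
  have h1 : SigS M p S = (SU S' ⊓ SigS M p S) ⊔ PW p Mˣ := by
    apply le_antisymm
    · intro a ha
      obtain ⟨y, hy⟩ := ClCountB_exists_mul_pow_mem_SU hgen p hp0 a
        (fun v hv => (mem_SigS_iff p S a).1 ha v (fun h => hv (hSS' h)))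
      have hyP : y ^ p ∈ PW p Mˣ := (mem_PW_iff p _).2 ⟨y, rfl⟩
      rw [Subgroup.mem_sup]
      refine ⟨a * y ^ p, Subgroup.mem_inf.2 ⟨hy, mul_mem ha (hPS hyP)⟩, (y ^ p)⁻¹,
        inv_mem hyP, by group⟩
    · exact sup_le inf_le_right hPS
  have h2 : PW p Mˣ ⊓ (SU S' ⊓ SigS M p S) = (SU S').map (powMonoidHom p : Mˣ →* Mˣ) := by
    ext x
    constructor
    · intro hx
      obtain ⟨hxP, hxX⟩ := Subgroup.mem_inf.1 hx
      obtain ⟨y, rfl⟩ := (mem_PW_iff p x).1 hxP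
      exact ⟨y, ClCountB_mem_SU_of_pow_mem S' hp0 (Subgroup.mem_inf.1 hxX).1, rfl⟩
    · rintro ⟨y, hy, rfl⟩
      have hyP : y ^ p ∈ PW p Mˣ := (mem_PW_iff p _).2 ⟨y, rfl⟩
      exact Subgroup.mem_inf.2 ⟨hyP, Subgroup.mem_inf.2 ⟨Subgroup.pow_mem _ hy p, hPS hyP⟩⟩
  have h3 : (PW p Mˣ).relIndex (SigS M p S) =
      ((SU S').map (powMonoidHom p : Mˣ →* Mˣ)).relIndex (SU S' ⊓ SigS M p S) := by
    conv_lhs => rw [h1]
    rw [Subgroup.relIndex_sup_right, ← Subgroup.inf_relIndex_right, h2]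
  have h4 : (SigS M p S).relIndex (SU S') = (SU S' ⊓ SigS M p S).relIndex (SU S') := by
    rw [Subgroup.inf_relIndex_left]
  rw [h3, h4, Subgroup.relIndex_mul_relIndex _ _ _ (by rw [← h2]; exact inf_le_right) inf_le_left,
    relIndex_pow_SU p hp2 ζ hζ S' hS']

/-- **Order of `Σ_S / p`.**  (`exists_GenCl`, `card_ClModP_mul`, `relIndex_PW_SigS_mul`, cancel.) -/
theorem relIndex_PW_SigS (p : ℕ) [Fact p.Prime] (hp2 : p ≠ 2) (ζ : M) (hζ : IsPrimitiveRoot ζ p)
    (S : Set (Pl M)) (hS : S.Finite) :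
    (PW p Mˣ).relIndex (SigS M p S) =
      p ^ (InfinitePlace.nrComplexPlaces M + S.ncard) * Nat.card (ClModP M p S) := by
  have hpp : p.Prime := Fact.out
  obtain ⟨S', hSS', hS', hgen⟩ := exists_GenCl S hS
  obtain ⟨-, h1⟩ := card_ClModP_mul p S S' hSS' hS' hgen
  have h2 := relIndex_PW_SigS_mul p hp2 ζ hζ S S' hSS' hS' hgen
  have hcard : S'.ncard = S.ncard + (S' \ S).ncard := by
    have := Set.ncard_sdiff_add_ncard_of_subset hSS' hS'
    omega
  set r := (SigS M p S).relIndex (SU S') with hr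
  have hr0 : r ≠ 0 := by
    intro h0
    rw [h0, mul_zero] at h1
    exact (pow_ne_zero _ hpp.ne_zero) h1.symm
  apply Nat.eq_of_mul_eq_mul_right (Nat.pos_of_ne_zero hr0)
  rw [h2, mul_assoc, h1, hcard, ← pow_add]
  congr 1
  ring

end Fermat.Agent.PT.Arith
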