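/-
S55 G-ARITH, leaf `NLBasic`: index of `NL`, split places, unramified and tame places.
-/
import Fermat.Agent.PT.Arith.NL

set_option autoImplicit false
set_option linter.unusedSectionVars false

namespace Fermat.Agent.PT.Arith

open Fermat.Agent.CFT IsDedekindDomain NumberField

variable {M : Type*} [Field M] [NumberField M] {M' : Type*} [Field M'] [NumberField M']
  [Algebra M M']

/-- from `LP_index_le` and `LP ≤ NL`. -/
theorem index_NL_ne_zero (p : ℕ) [Fact p.Prime] (ζ : M) (hζ : IsPrimitiveRoot ζ p) (v : Pl M) :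
    (NL M M' p ζ v).index ≠ 0 := by
  intro h
  have h1 := Subgroup.index_dvd_of_le (LP_le_NL (M' := M') p ζ v)
  rw [h, zero_dvd_iff] at h1
  exact (LP_index_le p ζ hζ v).1 h1

/-- `Mˣ / NL` is killed by `p` (`PW ≤ LP ≤ NL`), so a proper `NL` has index divisible by `p`
(`KeyLemma.dvd_relIndex_of_pow_mem`). -/
theorem dvd_index_NL (p : ℕ) [Fact p.Prime] (ζ : M) (v : Pl M)
    (h : NL M M' p ζ v ≠ ⊤) : p ∣ (NL M M' p ζ v).index := by
  have hp : p.Prime := Fact.out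
  obtain ⟨g, hg⟩ : ∃ g : Mˣ, g ∉ NL M M' p ζ v := by
    by_contra hcon
    push Not at hcon
    exact h (eq_top_iff.2 fun x _ => hcon x)
  have := KeyLemma.dvd_relIndex_of_pow_mem hp (NL M M' p ζ v) ⊤ g (Subgroup.mem_top g) hg
    (LP_le_NL p ζ v (pow_mem_LP p ζ v g))
  rwa [Subgroup.relIndex_top_right] at this

/-- `NL v` is open. -/
theorem exists_PU_le_NL (p : ℕ) (ζ : M) (v : Pl M) : ∃ n : ℕ, PU v n ≤ NL M M' p ζ v :=
  ⟨_, le_sup_left.trans (LP_le_NL p ζ v)⟩

/-- If `v` is non split and `e(w/v) = 1` then `ord_v` of a norm is divisible by `p`: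
`ord_v (N z) = ord_w (N z) = ∑_σ ord_{σ⁻¹ w} z = p * ord_w z` (`ord_algebraMap`, `ord_algebraMap_norm`,
`smul_eq_of_not_split`). -/
theorem NL_le_PD_of_ramificationIdx_eq_one (p : ℕ) [Fact p.Prime] (ζ : M) [IsGalois M M']
    (hdeg : Module.finrank M M' = p) {v : Pl M} {w : Pl M'} (hw : Above w v)
    (he : Ideal.ramificationIdx' v.asIdeal w.asIdeal = 1) (hns : ¬ Split M' v) :
    NL M M' p ζ v ≤ PD p v := by
  unfold NL
  rw [sup_le_iff]
  refine ⟨?_, LP_le_PD p ζ v⟩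
  rintro x ⟨z, rfl⟩
  rw [mem_PD_iff]
  show (p : ℤ) ∣ ord v (Algebra.norm M (z : M'))
  have h0 : ord w (algebraMap M M' (Algebra.norm M (z : M'))) = ord v (Algebra.norm M (z : M')) := by
    rw [ord_algebraMap hw, he]; simp
  rw [← h0, ord_algebraMap_norm w z.ne_zero]
  have h1 : ∀ σ : M' ≃ₐ[M] M', ord (σ⁻¹ • w) (z : M') = ord w (z : M') := by
    intro σ
    rw [smul_eq_of_not_split (Fact.out : p.Prime) hdeg hw hns σ⁻¹]
  rw [Finset.sum_congr rfl (fun σ _ => h1 σ), Finset.sum_const, Finset.card_univ,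
    ← Nat.card_eq_fintype_card, IsGalois.card_aut_eq_finrank, hdeg, nsmul_eq_mul]
  exact Dvd.intro _ rfl

/-- a unit of `M` with `ord_v = 1`. -/
theorem exists_unit_ord_eq_one (v : Pl M) : ∃ y : Mˣ, ord v (y : M) = 1 := by
  obtain ⟨π, hπ⟩ := exists_uniformizer v
  have h0 : (π : M) ≠ 0 := by
    intro h
    rw [h] at hπ
    simp [ord] at hπ
  exact ⟨Units.mk0 (π : M) h0, hπ⟩

/-- `PD p v ≠ ⊤` (there is an element of `ord = 1`). -/
theorem PD_ne_top (p : ℕ) [Fact p.Prime] (v : Pl M) : PD p v ≠ ⊤ := by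
  have hp : p.Prime := Fact.out
  intro h
  obtain ⟨y, hy⟩ := exists_unit_ord_eq_one v
  have h1 : y ∈ PD p v := by rw [h]; exact Subgroup.mem_top y
  rw [mem_PD_iff, hy] at h1
  have h2 : p ∣ 1 := by exact_mod_cast h1
  exact hp.one_lt.ne' (Nat.dvd_one.1 h2)

/-- For a non split place: `e = 1` or `e = p` (`card_stabilizer_eq`, the stabiliser is everything). -/
theorem ramificationIdx_eq_one_or (p : ℕ) [Fact p.Prime] [IsGalois M M']
    (hdeg : Module.finrank M M' = p) {v : Pl M} {w : Pl M'} (hw : Above w v) (hns : ¬ Split M' v) :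
    Ideal.ramificationIdx' v.asIdeal w.asIdeal = 1 ∨ Ideal.ramificationIdx' v.asIdeal w.asIdeal = p := by
  have hp : p.Prime := Fact.out
  have hcard : Nat.card (M' ≃ₐ[M] M') = p := by rw [IsGalois.card_aut_eq_finrank, hdeg]
  have hstab : MulAction.stabilizer (M' ≃ₐ[M] M') w = ⊤ := by
    rw [eq_top_iff]
    intro σ _
    exact smul_eq_of_not_split hp hdeg hw hns σ
  have hef : Ideal.ramificationIdx' v.asIdeal w.asIdeal * Ideal.inertiaDeg' v.asIdeal w.asIdeal = p := by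
    rw [← card_stabilizer_eq hw, hstab, Subgroup.card_top, hcard]
  exact (Nat.dvd_prime hp).1 ⟨_, hef.symm⟩

/-- **Non split places not over `p`** (inert or tamely ramified).
Let `τ y = y ^ ord_v α * α ^ (- ord_v y)` (`KeyLemma.tame α v`).  By `tame_norm_mem_LP`, `τ` maps `NR`
into `LP`; it also maps `LP` into `LP`.  So if `NL = ⊤` then `τ y ∈ LP` for all `y`.
* `p ∤ ord_v α`: take `y ∈ UD v \ LP` (`LP_relIndex_UD = p`); `τ y = y ^ ord_v α ∉ LP`
  (`KeyLemma.zpow_not_mem`).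
* `p ∣ ord_v α`: take `ord_v y = 1`; `τ y = y ^ ord_v α * α⁻¹`, `y ^ ord_v α ∈ PW ≤ LP`, hence `α ∈ LP`
  and `v` splits (`split_of_mem_LP`), contradiction. -/
theorem NL_ne_top_of_not_over (p : ℕ) [Fact p.Prime] (hp2 : p ≠ 2) (ζ : M)
    (hζ : IsPrimitiveRoot ζ p) [IsGalois M M'] (hdeg : Module.finrank M M' = p)
    (v : Pl M) (hv : ¬ Over v p) (hns : ¬ Split M' v) : NL M M' p ζ v ≠ ⊤ := by
  have hp : p.Prime := Fact.out
  intro htop
  obtain ⟨θ, α, hθ, hnot⟩ := HNT.exists_kummer (M' := M') p ζ hζ hdeg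
  have hcard : Nat.card (M' ≃ₐ[M] M') = p := by rw [IsGalois.card_aut_eq_finrank, hdeg]
  have hgen : ∀ σ : M' ≃ₐ[M] M', σ θ = θ → σ = 1 := by
    intro σ hσ
    by_contra hne
    have htop' : Subgroup.zpowers σ = ⊤ := zpowers_eq_top_of_prime_card hcard hne
    have hle : Subgroup.zpowers σ ≤ MulAction.stabilizer (M' ≃ₐ[M] M') θ := by
      rw [Subgroup.zpowers_le]
      exact hσ
    have hall : ∀ τ : M' ≃ₐ[M] M', τ θ = θ := by
      intro τ
      have : τ ∈ Subgroup.zpowers σ := by rw [htop']; trivial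
      exact hle this
    obtain ⟨c, hc⟩ := (IsGalois.mem_range_algebraMap_iff_fixed θ).mpr hall
    exact hnot c hc
  -- the tame symbol maps everything into `LP`
  have hLPLP : ∀ l ∈ LP p ζ v, KeyLemma.tame α v l ∈ LP p ζ v := by
    intro l hl
    rw [KeyLemma.tame_apply]
    refine (LP p ζ v).mul_mem ((LP p ζ v).zpow_mem hl _) ?_
    exact zpow_mem_LP_of_dvd p ζ v α ((dvd_neg).mpr (LP_le_PD p ζ v hl))
  have hall : ∀ y : Mˣ, KeyLemma.tame α v y ∈ LP p ζ v := by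
    intro y
    have hy : y ∈ NL M M' p ζ v := by rw [htop]; exact Subgroup.mem_top y
    obtain ⟨z, l, hl, rfl⟩ := (mem_NL_iff p ζ v y).1 hy
    rw [map_mul]
    refine (LP p ζ v).mul_mem ?_ (hLPLP l hl)
    rw [KeyLemma.tame_apply]
    exact tame_norm_mem_LP p hp2 ζ hζ hdeg θ α hθ v hv hns z
  by_cases hpa : (p : ℤ) ∣ ord v (α : M)
  · obtain ⟨y, hy⟩ := exists_unit_ord_eq_one v
    have h1 := hall y
    rw [KeyLemma.tame_apply, hy] at h1
    have h2 : y ^ ord v (α : M) ∈ LP p ζ v := zpow_mem_LP_of_dvd p ζ v y hpa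
    have h3 : α ^ (-1 : ℤ) ∈ LP p ζ v := by
      have := (LP p ζ v).mul_mem ((LP p ζ v).inv_mem h2) h1
      rwa [inv_mul_cancel_left] at this
    have h4 : α ∈ LP p ζ v := by
      have := (LP p ζ v).inv_mem h3
      simpa using this
    exact hns (split_of_mem_LP p ζ hζ θ α hθ hgen v h4)
  · obtain ⟨y, hyU, hyL⟩ : ∃ y : Mˣ, y ∈ UD v ∧ y ∉ LP p ζ v := by
      by_contra hcon
      push Not at hcon
      have hle : UD v ≤ LP p ζ v := fun y hy => hcon y hy
      have h1 := LP_relIndex_UD p ζ hζ v hv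
      rw [Subgroup.relIndex_eq_one.2 hle] at h1
      exact hp.one_lt.ne h1
    have h1 := hall y
    rw [KeyLemma.tame_of_ord_eq_zero α v y ((mem_UD_iff v y).1 hyU)] at h1
    exact KeyLemma.zpow_not_mem hp (LP p ζ v) y hyL (pow_mem_LP p ζ v y) hpa h1

end Fermat.Agent.PT.Arith
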