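/-
S55 G-ARITH, leaf `Hensel`: in the definition of `LP` (hence of `NL`) the neighbourhood of `1` can be
shrunk arbitrarily.
-/
import Fermat.Agent.PT.Arith.NL

set_option autoImplicit false
set_option linter.unusedSectionVars false

namespace Fermat.Agent.PT.Arith

open Fermat.Agent.CFT IsDedekindDomain NumberField

variable {M : Type*} [Field M] [NumberField M] {M' : Type*} [Field M'] [NumberField M']
  [Algebra M M']

open Polynomial in
private theorem hensel_poly_identity (p : ℕ) (hp : p.Prime) :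
    ∃ S : ℤ[X], (X + 1 : ℤ[X]) ^ p = X ^ p + 1 + (p : ℤ[X]) * X + (p : ℤ[X]) * X ^ 2 * S := by
  obtain ⟨R, hR⟩ := exists_add_pow_prime_eq hp (X : ℤ[X]) 1
  have h1 := congrArg (fun q => q.coeff 1) hR
  simp only [coeff_X_add_one_pow, Nat.choose_one_right, one_pow, mul_one, coeff_add] at h1
  have h2 : ((p : ℤ[X]) * X * R).coeff 1 = (p : ℤ) * R.coeff 0 := by
    rw [mul_assoc, ← C_eq_natCast, coeff_C_mul, coeff_X_mul]
  have h3 : (X ^ p : ℤ[X]).coeff 1 = 0 := by
    rw [coeff_X_pow, if_neg hp.one_lt.ne]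
  have h4 : (1 : ℤ[X]).coeff 1 = 0 := by
    rw [coeff_one, if_neg one_ne_zero]
  rw [h2, h3, h4, zero_add, zero_add] at h1
  have hp0 : (p : ℤ) ≠ 0 := by exact_mod_cast hp.ne_zero
  have h5 : R.coeff 0 = 1 := by
    have : (p : ℤ) * R.coeff 0 = (p : ℤ) * 1 := by rw [← h1]; simp
    exact mul_left_cancel₀ hp0 this
  obtain ⟨S, hS⟩ := X_dvd_sub_C (p := R)
  rw [h5] at hS
  refine ⟨S, ?_⟩
  have hRS : R = 1 + X * S := by
    rw [← hS]; simp
  rw [hR, hRS]
  ring

/-- an integral polynomial expression in a `v`-integral element is `v`-integral -/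
private theorem hensel_valuation_aeval_le_one (v : Pl M) {w : M} (hw : v.valuation M w ≤ 1)
    (S : Polynomial ℤ) : v.valuation M (Polynomial.aeval w S) ≤ 1 := by
  rw [Polynomial.aeval_eq_sum_range]
  refine Valuation.map_sum_le _ fun i _ => ?_
  rw [zsmul_eq_mul, map_mul, map_pow]
  have h1 : v.valuation M ((S.coeff i : ℤ) : M) ≤ 1 := by
    have := v.valuation_le_one (K := M) ((S.coeff i : ℤ) : 𝓞 M)
    simpa using this
  exact mul_le_one' h1 (pow_le_one' hw i)

private theorem hensel_ge_of_valuation_le_one (v : Pl M) {x : M} (hx : v.valuation M x ≤ 1) :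
    x = 0 ∨ (0 : ℤ) ≤ ord v x := by
  rcases eq_or_ne x 0 with rfl | h0
  · exact Or.inl rfl
  · right
    have := (valuation_le_exp_neg_iff v h0 0).mp (by simpa using hx)
    exact this

private theorem hensel_ge_mul (v : Pl M) {x y : M} {a b : ℤ} (hx : x = 0 ∨ a ≤ ord v x)
    (hy : y = 0 ∨ b ≤ ord v y) : x * y = 0 ∨ a + b ≤ ord v (x * y) := by
  rcases hx with rfl | hx
  · left; simp
  rcases hy with rfl | hy
  · left; simp
  by_cases hx0 : x = 0
  · left; simp [hx0]
  by_cases hy0 : y = 0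
  · left; simp [hy0]
  right
  rw [ord_mul v hx0 hy0]
  omega

/-- One Newton step.  `x = 1 + y`, `ord y > k ≥ p e₀` (`e₀ = ord (1-ζ)`, `ord p = (p-1) e₀` by
`ord_p_eq`).  Put `t = 1 + y/p`.  Then `x - t^p = - ∑_{2 ≤ j ≤ p} C(p,j) (y/p)^j` and every term has
`ord ≥ ord y + 1`:  for `2 ≤ j < p`: `ord = ord y + (j-1)(ord y - (p-1)e₀)`, for `j = p`:
`ord = ord y + (p-1)(ord y - p e₀)`.  (For `v ∤ p`: `e₀ = 0`, `p` is a unit at `v`.) -/
theorem PU_le_PU_succ_sup_PW (p : ℕ) [Fact p.Prime] (ζ : M) (hζ : IsPrimitiveRoot ζ p) (v : Pl M)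
    (k : ℕ) (hk : p * (ord v (1 - ζ)).toNat ≤ k) : PU v k ≤ PU v (k + 1) ⊔ PW p Mˣ := by
  have hp : p.Prime := Fact.out
  intro x hx
  rw [mem_PU_iff] at hx
  rcases hx with hx | hx
  · have : x = 1 := Units.ext hx
    rw [this]
    exact one_mem _
  -- notation
  set e₀ : ℤ := ord v (1 - ζ) with he₀
  have he₀nn : 0 ≤ e₀ := by
    have h1 := ord_nonneg_of_integer v (1 - hζ.toInteger)
    simpa using h1
  have hk' : (p : ℤ) * e₀ ≤ k := by
    have : ((p * (ord v (1 - ζ)).toNat : ℕ) : ℤ) ≤ (k : ℤ) := by exact_mod_cast hk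
    rw [Nat.cast_mul, Int.toNat_of_nonneg he₀nn] at this
    exact this
  have hp1 : (1 : ℤ) ≤ (p : ℤ) - 1 := by
    have := hp.two_le
    omega
  have hordp : ord v (p : M) = ((p : ℤ) - 1) * e₀ := by
    rw [ord_p_eq p v hζ, Nat.cast_sub hp.one_le, Nat.cast_one]
  have hpM : (p : M) ≠ 0 := by exact_mod_cast hp.ne_zero
  set y : M := (x : M) - 1 with hy
  set n : ℤ := ord v y with hn
  have hy0 : y ≠ 0 := by
    intro h0
    rw [hn, h0, ord_zero] at hx
    omega
  set w : M := y / p with hw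
  have hw0 : w ≠ 0 := div_ne_zero hy0 hpM
  have hpw : (p : M) * w = y := by
    rw [hw]; field_simp
  set a : ℤ := ord v w with ha
  have haeq : a = n - ((p : ℤ) - 1) * e₀ := by
    rw [ha, hw, ord_div v hy0 hpM, hordp]
  have hae : 1 ≤ a - e₀ := by
    have : a - e₀ = n - (p : ℤ) * e₀ := by rw [haeq]; ring
    rw [this]
    omega
  have ha1 : 1 ≤ a := by omega
  have hwval : v.valuation M w ≤ 1 := by
    have := (valuation_le_exp_neg_iff v hw0 0).mpr (by omega)
    simpa using this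
  -- the identity
  obtain ⟨S, hS⟩ := hensel_poly_identity p hp
  have hid := congrArg (Polynomial.aeval w) hS
  simp only [map_add, map_mul, map_pow, map_one, map_natCast, Polynomial.aeval_X] at hid
  set σ : M := Polynomial.aeval w S with hσ
  have hσge : σ = 0 ∨ (0 : ℤ) ≤ ord v σ :=
    hensel_ge_of_valuation_le_one v (hensel_valuation_aeval_le_one v hwval S)
  -- the element `t`
  set t : M := w + 1 with ht
  have hordt : ord v t = 0 := by
    rw [ht, add_comm, ord_add_eq_of_lt v one_ne_zero hw0 (by rw [ord_one]; omega), ord_one]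
  have ht0 : t ≠ 0 := by
    intro h0
    have h1 : w = -1 := by
      rw [ht] at h0
      exact eq_neg_of_add_eq_zero_left h0
    have h2 : a = 0 := by rw [ha, h1, ord_neg, ord_one]
    omega
  -- the difference
  have hdiff : (x : M) - t ^ p = -(w ^ p + (p : M) * w ^ 2 * σ) := by
    have hx1 : (x : M) = 1 + (p : M) * w := by rw [hpw, hy]; ring
    rw [hid, hx1]
    ring
  have hge1 : w ^ p = 0 ∨ n + 1 ≤ ord v (w ^ p) := by
    right
    rw [ord_pow]
    have h1 : (p : ℤ) * a = n + ((p : ℤ) - 1) * (a - e₀) := by rw [haeq]; ring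
    rw [← ha, h1]
    have h2 : 1 ≤ ((p : ℤ) - 1) * (a - e₀) := by nlinarith
    omega
  have hge2 : (p : M) * w ^ 2 * σ = 0 ∨ n + 1 ≤ ord v ((p : M) * w ^ 2 * σ) := by
    have h1 : (p : M) * w ^ 2 = 0 ∨ n + 1 ≤ ord v ((p : M) * w ^ 2) := by
      right
      rw [ord_mul v hpM (pow_ne_zero 2 hw0), ord_pow, hordp, ← ha]
      push_cast
      have : ((p : ℤ) - 1) * e₀ + 2 * a = n + a := by rw [haeq]; ring
      omega
    have h2 := hensel_ge_mul v h1 hσge
    simpa using h2
  have hge : (x : M) - t ^ p = 0 ∨ n + 1 ≤ ord v ((x : M) - t ^ p) := by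
    rw [hdiff, neg_eq_zero, ord_neg]
    exact le_ord_add v hge1 hge2
  -- conclusion
  let tu : Mˣ := Units.mk0 t ht0
  have hmem : x * (tu ^ p)⁻¹ ∈ PU v (k + 1) := by
    rw [mem_PU_iff]
    have hval : ((x * (tu ^ p)⁻¹ : Mˣ) : M) - 1 = ((x : M) - t ^ p) / t ^ p := by
      have htp : t ^ p ≠ 0 := pow_ne_zero p ht0
      simp only [Units.val_mul, Units.val_inv_eq_inv_val, Units.val_pow_eq_pow_val, tu,
        Units.val_mk0]
      field_simp
    rcases hge with h0 | hge
    · left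
      have := hval
      rw [h0, zero_div] at this
      exact sub_eq_zero.mp this
    · by_cases h0 : (x : M) - t ^ p = 0
      · left
        have := hval
        rw [h0, zero_div] at this
        exact sub_eq_zero.mp this
      · right
        rw [hval, ord_div v h0 (pow_ne_zero p ht0), ord_pow, hordt]
        push_cast
        omega
  have hx' : x = x * (tu ^ p)⁻¹ * tu ^ p := by simp
  rw [hx']
  exact Subgroup.mul_mem_sup hmem ((mem_PW_iff p _).mpr ⟨tu, rfl⟩)

/-- **Hensel at finite level.** -/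
theorem LP_eq_PU_sup_PW (p : ℕ) [Fact p.Prime] (ζ : M) (hζ : IsPrimitiveRoot ζ p) (v : Pl M) (m : ℕ)
    (hm : p * (ord v (1 - ζ)).toNat ≤ m) : LP p ζ v = PU v m ⊔ PW p Mˣ := by
  unfold LP
  apply le_antisymm
  · refine sup_le ?_ le_sup_right
    induction m, hm using Nat.le_induction with
    | base => exact le_sup_left
    | succ k hk ih =>
      refine ih.trans (sup_le ?_ le_sup_right)
      exact PU_le_PU_succ_sup_PW p ζ hζ v k hk
  · exact sup_le_sup_right (PU_anti v hm) _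

/-- `NL` with an arbitrarily small neighbourhood of `1`. -/
theorem mem_NL_iff_PU (p : ℕ) [Fact p.Prime] (ζ : M) (hζ : IsPrimitiveRoot ζ p)
    (hdeg : Module.finrank M M' = p) (v : Pl M) (m : ℕ)
    (hm : p * (ord v (1 - ζ)).toNat ≤ m) (x : Mˣ) :
    x ∈ NL M M' p ζ v ↔
      ∃ z : M'ˣ, ∃ u ∈ PU v m, x = Units.map (Algebra.norm M : M' →* M) z * u := by
  have h1 : NL M M' p ζ v = NR M M' ⊔ PU v m := by
    unfold NL
    rw [LP_eq_PU_sup_PW p ζ hζ v m hm]
    apply le_antisymm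
    · exact sup_le le_sup_left (sup_le le_sup_right ((PW_le_NR p hdeg).trans le_sup_left))
    · exact sup_le_sup_left le_sup_left _
  rw [h1, Subgroup.mem_sup]
  constructor
  · rintro ⟨y, ⟨z, rfl⟩, u, hu, rfl⟩
    exact ⟨z, u, hu, rfl⟩
  · rintro ⟨z, u, hu, rfl⟩
    exact ⟨_, ⟨z, rfl⟩, u, hu, rfl⟩

end Fermat.Agent.PT.Arith
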