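/-
S55 G-ARITH: at a non split place of a cyclic extension of degree `p` not everything is a local norm.
-/
import Fermat.Agent.PT.Arith.NLBasic
import Fermat.Agent.PT.Arith.Wild.Main
import Fermat.Agent.PT.Arith.Wild.Exists

set_option autoImplicit false
set_option linter.unusedSectionVars false

namespace Fermat.Agent.PT.Arith

open Fermat.Agent.CFT IsDedekindDomain NumberField

variable {M : Type*} [Field M] [NumberField M] {M' : Type*} [Field M'] [NumberField M']
  [Algebra M M']

/-- **Local first inequality** (elementary form). -/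
theorem NL_ne_top (p : ℕ) [Fact p.Prime] (ζ : M) (hζ : IsPrimitiveRoot ζ p) [IsGalois M M']
    (hdeg : Module.finrank M M' = p) (v : Pl M) (hns : ¬ Split M' v) : NL M M' p ζ v ≠ ⊤ := by
  obtain ⟨w, hw⟩ := exists_above (N' := M') v
  rcases ramificationIdx_eq_one_or p hdeg hw hns with he | he
  · intro h
    have h1 := NL_le_PD_of_ramificationIdx_eq_one p ζ hdeg hw he hns
    rw [h] at h1
    exact PD_ne_top p v (top_le_iff.mp h1)
  · obtain ⟨D, rfl⟩ := exists_wildData p hdeg hw hns he
    obtain ⟨u, hu⟩ := D.exists_not_mem_NL ζ hζ hdeg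
    intro h
    exact hu (h ▸ Subgroup.mem_top u)

end Fermat.Agent.PT.Arith
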