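/-
S55 G-ARITH, leaf `NLSplit`: at a split place everything is a local norm.
-/
import Fermat.Agent.PT.Arith.NL

set_option autoImplicit false
set_option linter.unusedSectionVars false

namespace Fermat.Agent.PT.Arith

open Fermat.Agent.CFT IsDedekindDomain NumberField

variable {M : Type*} [Field M] [NumberField M] {M' : Type*} [Field M'] [NumberField M']
  [Algebra M M']

/-- At a split place everything is a local norm.
Proof: fix `w₁` above `v`; the places `σ⁻¹ • w₁` (`σ ∈ Gal`) are pairwise distinct (`Split`).  Given `b`,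
weak approximation (`exists_approx` in `M'`, finite set `{w | Above w v}`) gives `δ` very close to `b`
at `w₁` and very close to `1` at the other places above `v`.  Then
`algebraMap (N δ) = ∏_σ σ δ` (`Algebra.norm_eq_prod_automorphisms`), `ord_{w₁}(σ δ - 1) =
ord_{σ⁻¹ w₁}(δ - 1)` is large for `σ ≠ 1`, so `N δ / b` is close to `1` at `w₁`, hence at `v`
(`unram_of_split`, `ord_algebraMap_of_unram`), i.e. `b / N δ ∈ PU v m ≤ LP`. -/
theorem NL_eq_top_of_split (p : ℕ) [Fact p.Prime] (ζ : M)
    [IsGalois M M'] (v : Pl M) (hs : Split M' v) : NL M M' p ζ v = ⊤ := by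
  classical
  rw [eq_top_iff]
  intro b _
  set m : ℕ := p * (ord v (1 - ζ)).toNat with hm
  obtain ⟨w₁, hw₁⟩ := exists_above (N' := M') v
  have hunr : Unram M w₁ := unram_of_split hw₁ hs
  set B : M' := algebraMap M M' (b : M) with hB
  have hB0 : B ≠ 0 := by
    rw [hB]
    simp
  -- approximation
  set n : ℤ := (m : ℤ) + 1 + |ord w₁ B| with hn
  obtain ⟨x, hx⟩ := exists_approx (finite_above (N' := M') v).toFinset
    (fun w => if w = w₁ then B else 1) n
  have hx1 : x = B ∨ n ≤ ord w₁ (x - B) := by
    have := hx w₁ (by simpa using hw₁)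
    simpa using this
  have hxo : ∀ w : Pl M', Above w v → w ≠ w₁ → x = 1 ∨ n ≤ ord w (x - 1) := by
    intro w hw hne
    have := hx w (by simpa using hw)
    simpa [hne] using this
  have hx0 : x ≠ 0 := by
    rintro rfl
    rcases hx1 with h | h
    · exact hB0 h.symm
    · rw [zero_sub] at h
      have h2 : ord w₁ (-B) = ord w₁ B := by
        unfold ord
        rw [Valuation.map_neg]
      rw [h2] at h
      have := le_abs_self (ord w₁ B)
      omega
  let X : M'ˣ := Units.mk0 x hx0
  let Bu : M'ˣ := Units.map (algebraMap M M' : M →* M') b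
  -- the factors
  let t : (M' ≃ₐ[M] M') → M'ˣ := fun σ =>
    if σ = 1 then X / Bu else Units.map (σ : M' →* M') X
  have ht : ∀ σ, t σ ∈ PU w₁ m := by
    intro σ
    by_cases hσ : σ = 1
    · simp only [t, hσ, if_true]
      rw [mem_PU_iff]
      have hval : ((X / Bu : M'ˣ) : M') = x / B := by
        simp [X, Bu, hB, Units.val_div_eq_div_val]
      rw [hval]
      rcases hx1 with h | h
      · left
        rw [h, div_self hB0]
      · by_cases hxB : x - B = 0
        · left
          rw [sub_eq_zero.mp hxB, div_self hB0]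
        · right
          have h3 : x / B - 1 = (x - B) / B := by
            field_simp
          rw [h3, ord_div w₁ hxB hB0]
          have := le_abs_self (ord w₁ B)
          omega
    · simp only [t, hσ, if_false]
      rw [mem_PU_iff]
      have hval : ((Units.map (σ : M' →* M') X : M'ˣ) : M') = σ x := rfl
      rw [hval]
      have hne : σ⁻¹ • w₁ ≠ w₁ := by
        intro h
        have := hs w₁ hw₁ σ⁻¹ h
        exact hσ (inv_eq_one.mp this)
      rcases hxo (σ⁻¹ • w₁) (above_smul hw₁ σ⁻¹) hne with h | h
      · left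
        rw [h, map_one]
      · right
        have h3 : σ x - 1 = σ • (x - 1) := by
          rw [AlgEquiv.smul_def, map_sub, map_one]
        rw [h3, ord_smul']
        have := abs_nonneg (ord w₁ B)
        omega
  have hprod : ∏ σ : M' ≃ₐ[M] M', t σ ∈ PU w₁ m := Subgroup.prod_mem _ fun σ _ => ht σ
  -- identify the product
  let Nx : Mˣ := Units.map (Algebra.norm M : M' →* M) X
  have hid : ∏ σ : M' ≃ₐ[M] M', t σ = Units.map (algebraMap M M' : M →* M') (Nx / b) := by
    have h1 : ∏ σ : M' ≃ₐ[M] M', t σ =
        (∏ σ : M' ≃ₐ[M] M', Units.map (σ : M' →* M') X) / Bu := by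
      have h2 : ∀ σ : M' ≃ₐ[M] M', t σ =
          Units.map (σ : M' →* M') X * (if σ = 1 then Bu⁻¹ else 1) := by
        intro σ
        by_cases hσ : σ = 1
        · subst hσ
          simp only [t, if_true]
          rw [div_eq_mul_inv]
          congr 1
        · simp [t, hσ]
      rw [Finset.prod_congr rfl (fun σ _ => h2 σ), Finset.prod_mul_distrib,
        Finset.prod_ite_eq' Finset.univ (1 : M' ≃ₐ[M] M') (fun _ => Bu⁻¹)]
      simp [div_eq_mul_inv]
    rw [h1, map_div]
    congr 1
    apply Units.ext
    have h4 := Algebra.norm_eq_prod_automorphisms M x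
    simp only [Units.coe_prod, Units.coe_map, MonoidHom.coe_coe, Nx, X, Units.val_mk0]
    rw [h4]
  rw [hid] at hprod
  have hPU : Nx / b ∈ PU v m := by
    rw [mem_PU_iff] at hprod ⊢
    have hval : ((Units.map (algebraMap M M' : M →* M') (Nx / b) : M'ˣ) : M') =
        algebraMap M M' ((Nx / b : Mˣ) : M) := rfl
    rw [hval] at hprod
    rcases hprod with h | h
    · left
      have : algebraMap M M' ((Nx / b : Mˣ) : M) = algebraMap M M' 1 := by rw [h, map_one]
      exact (algebraMap M M').injective this
    · right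
      have h5 : algebraMap M M' ((Nx / b : Mˣ) : M) - 1 = algebraMap M M' (((Nx / b : Mˣ) : M) - 1) := by
        rw [map_sub, map_one]
      rw [h5, ord_algebraMap_of_unram hw₁ hunr] at h
      exact h
  have hLP : Nx / b ∈ LP p ζ v := Subgroup.mem_sup_left hPU
  have hb : b = Nx * (Nx / b)⁻¹ := by
    rw [inv_div, mul_div_cancel]
  rw [hb]
  exact (NL M M' p ζ v).mul_mem (NR_le_NL p ζ v (norm_mem_NR X))
    (LP_le_NL p ζ v ((LP p ζ v).inv_mem hLP))

end Fermat.Agent.PT.Arith
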