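/-
S55 G-ARITH, leaf `IndexProd`: weak approximation in index form.
-/
import Fermat.Agent.PT.Arith.NL

set_option autoImplicit false
set_option linter.unusedSectionVars false

namespace Fermat.Agent.PT.Arith

open Fermat.Agent.CFT IsDedekindDomain NumberField

variable {M : Type*} [Field M] [NumberField M]

/-- multiplicative weak approximation (from `exists_approx`). -/
theorem exists_unit_approx (S : Finset (Pl M)) (a : Pl M → Mˣ) (n : ℕ) :
    ∃ x : Mˣ, ∀ v ∈ S, x / a v ∈ PU v n := by
  classical
  rcases S.eq_empty_or_nonempty with rfl | ⟨v₀, hv₀⟩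
  · exact ⟨1, by simp⟩
  set m : ℤ := (n : ℤ) + 1 + ∑ v ∈ S, |ord v ((a v : Mˣ) : M)| with hm
  have hle : ∀ v ∈ S, ord v ((a v : Mˣ) : M) + n + 1 ≤ m := by
    intro v hv
    have h1 : |ord v ((a v : Mˣ) : M)| ≤ ∑ v ∈ S, |ord v ((a v : Mˣ) : M)| :=
      Finset.single_le_sum (f := fun v => |ord v ((a v : Mˣ) : M)|)
        (fun i _ => abs_nonneg _) hv
    have h2 := le_abs_self (ord v ((a v : Mˣ) : M))
    omega
  obtain ⟨x, hx⟩ := exists_approx S (fun v => ((a v : Mˣ) : M)) m
  have hx0 : x ≠ 0 := by
    rintro rfl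
    rcases hx v₀ hv₀ with h | h
    · exact (a v₀).ne_zero h.symm
    · rw [zero_sub, ord_neg] at h
      have := hle v₀ hv₀
      omega
  refine ⟨Units.mk0 x hx0, fun v hv => ?_⟩
  rw [mem_PU_iff]
  have hav : ((a v : Mˣ) : M) ≠ 0 := (a v).ne_zero
  have hcoe : ((Units.mk0 x hx0 / a v : Mˣ) : M) = x / (a v : M) := by
    simp [Units.val_div_eq_div_val]
  rcases hx v hv with h | h
  · left
    rw [hcoe, h, div_self hav]
  · by_cases hxa : x - (a v : M) = 0
    · left
      rw [hcoe, sub_eq_zero.mp hxa, div_self hav]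
    · right
      have : ((Units.mk0 x hx0 / a v : Mˣ) : M) - 1 = (x - (a v : M)) / (a v : M) := by
        rw [hcoe]
        field_simp
      rw [this, ord_div v hxa hav]
      have := hle v hv
      omega

/-- For open subgroups `H v` (`v ∈ S`, `S` finite) the map `Mˣ → ∏_{v ∈ S} Mˣ / H v` is onto. -/
theorem exists_unit_div_mem (S : Finset (Pl M)) (H : Pl M → Subgroup Mˣ)
    (hopen : ∀ v ∈ S, ∃ n : ℕ, PU v n ≤ H v) (a : Pl M → Mˣ) :
    ∃ x : Mˣ, ∀ v ∈ S, x / a v ∈ H v := by
  classical
  let nn : Pl M → ℕ := fun v => if h : v ∈ S then (hopen v h).choose else 0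
  have hnn : ∀ v (h : v ∈ S), PU v (nn v) ≤ H v := by
    intro v h
    simp only [nn, dif_pos h]
    exact (hopen v h).choose_spec
  obtain ⟨x, hx⟩ := exists_unit_approx S a (S.sup nn)
  refine ⟨x, fun v hv => hnn v hv (PU_anti v (Finset.le_sup hv) (hx v hv))⟩

/-- Hence the index of the intersection is the product of the indices. -/
theorem index_iInf_eq_prod (S : Finset (Pl M)) (H : Pl M → Subgroup Mˣ)
    (hopen : ∀ v ∈ S, ∃ n : ℕ, PU v n ≤ H v) :
    (⨅ v ∈ S, H v).index = ∏ v ∈ S, (H v).index := by
  classical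
  induction S using Finset.induction_on with
  | empty => simp
  | insert v S hvS ih =>
    have ih' := ih (fun w hw => hopen w (Finset.mem_insert_of_mem hw))
    rw [Finset.iInf_insert, Finset.prod_insert hvS, ← ih']
    set K : Subgroup Mˣ := ⨅ w ∈ S, H w with hK
    have htop : H v ⊔ K = ⊤ := by
      rw [eq_top_iff]
      intro g _
      obtain ⟨x, hx⟩ := exists_unit_div_mem (insert v S) H hopen
        (fun w => if w = v then g else 1)
      have h1 : x / g ∈ H v := by
        have := hx v (Finset.mem_insert_self v S)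
        simpa using this
      have h2 : x ∈ K := by
        rw [hK]
        simp only [Subgroup.mem_iInf]
        intro w hw
        have hwv : w ≠ v := fun h => hvS (h ▸ hw)
        have := hx w (Finset.mem_insert_of_mem hw)
        simpa [hwv] using this
      have : g = (x / g)⁻¹ * x := by
        rw [inv_div, div_mul_cancel]
      rw [this]
      exact Subgroup.mul_mem_sup ((H v).inv_mem h1) h2
    have h3 : (H v ⊓ K).index = (H v).relIndex K * K.index := by
      have := Subgroup.relIndex_inf_mul_relIndex (H v) K ⊤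
      simpa using this.symm
    have h4 : (H v).relIndex K = (H v).index := by
      rw [← Subgroup.relIndex_sup_left, htop, Subgroup.relIndex_top_right]
    rw [h3, h4]

end Fermat.Agent.PT.Arith
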