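/-
S55 G-ARITH, leaf `SIGen`: the second inequality with local norm groups (ramification allowed).
-/
import Fermat.Agent.PT.Arith.NLBasic
import Fermat.Agent.PT.Arith.IndexProd
import Fermat.Agent.CFT.SI

set_option autoImplicit false
set_option linter.unusedSectionVars false

namespace Fermat.Agent.PT.Arith

open Fermat.Agent.CFT IsDedekindDomain NumberField

variable {M : Type*} [Field M] [NumberField M] {M' : Type*} [Field M'] [NumberField M']
  [Algebra M M']

/-- Same proof as `CFT.secondInequality`: `SI.index_le_relIndex_mul` with `X = SU (S ∪ T)`,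
`A = ⨅_{v ∈ S} LP v`, `B = ⨅_{v ∈ S} NL v` (`LP_le_NL`), `SI.index_iInf_LP`, `SI.inf_eq_map_pow`,
`relIndex_pow_SU`; the index of `B` is the product by `index_iInf_eq_prod` and `exists_PU_le_NL`. -/
theorem secondInequalityGen (p : ℕ) [Fact p.Prime] (hp2 : p ≠ 2) (ζ : M) (hζ : IsPrimitiveRoot ζ p)
    (S T : Set (Pl M)) (hS : S.Finite) (hT : T.Finite) (hgen : GenCl S)
    (hSp : ∀ v : Pl M, Over v p → v ∈ S) (hdisj : Disjoint T S)
    (hcard : T.ncard + 1 = InfinitePlace.nrComplexPlaces M + S.ncard)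
    (hsurj : SurjOn p ζ S T) :
    ∏ v ∈ hS.toFinset, (NL M M' p ζ v).index ≤
      ((SU (S ∪ T)) ⊓ ⨅ v ∈ S, NL M M' p ζ v).relIndex (SU (S ∪ T)) * p := by
  have hpp : p.Prime := Fact.out
  have e : (⨅ v ∈ S, NL M M' p ζ v) = ⨅ v ∈ hS.toFinset, NL M M' p ζ v := by
    simp only [Set.Finite.mem_toFinset]
  rw [← index_iInf_eq_prod hS.toFinset (fun v => NL M M' p ζ v)
    (fun v _ => exists_PU_le_NL p ζ v), ← e]
  obtain ⟨hA0, hA⟩ := SI.index_iInf_LP p hp2 ζ hζ S hS hSp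
  refine SI.index_le_relIndex_mul (SU (S ∪ T)) (⨅ v ∈ S, LP p ζ v) (⨅ v ∈ S, NL M M' p ζ v) ?_ p
    (InfinitePlace.nrComplexPlaces M + S.ncard + T.ncard) hpp.pos hA0 ?_ ?_
  · refine le_iInf₂ fun v hv => ?_
    exact (iInf₂_le v hv).trans (LP_le_NL p ζ v)
  · refine hA.trans (le_of_eq ?_)
    congr 1
    omega
  · rw [← Subgroup.inf_relIndex_right,
      SI.inf_eq_map_pow p hp2 ζ hζ S T hS hT hgen hSp hdisj hsurj,
      relIndex_pow_SU p hp2 ζ hζ (S ∪ T) (hS.union hT),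
      Set.ncard_union_eq hdisj.symm hS hT, add_assoc]

end Fermat.Agent.PT.Arith
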