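/-
S55 G-ARITH, leaf `TSelectGen`: helper14's `exists_split_nonresidue` and `exists_T` WITHOUT the
hypothesis that `M'/M` is unramified.  (In `CFT/EX.lean` and `CFT/TSelect.lean` the hypothesis `hunr` is
never really used: copy the two proofs and delete it.)
-/
import Fermat.Agent.PT.Arith.NL
import Fermat.Agent.CFT.TSelect
import Fermat.Agent.CFT.EX

set_option autoImplicit false
set_option linter.unusedSectionVars false

namespace Fermat.Agent.PT.Arith

open Fermat.Agent.CFT IsDedekindDomain NumberField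

variable {M : Type*} [Field M] [NumberField M] {M' : Type*} [Field M'] [NumberField M']
  [Algebra M M']

theorem exists_split_nonresidue_gen (p : ℕ) [Fact p.Prime] (ζ : M) (hζ : IsPrimitiveRoot ζ p)
    [IsGalois M M'] (hdeg : Module.finrank M M' = p)
    (y : Mˣ) (hy : ∀ z : M', z ^ p ≠ algebraMap M M' y) (S₀ : Set (Pl M)) (hS₀ : S₀.Finite) :
    ∃ w : Pl M, w ∉ S₀ ∧ Split M' w ∧ ¬ Over w p ∧ y ∈ UD w ∧ y ∉ LP p ζ w := by
  have hp : p.Prime := Fact.out
  have : NeZero p := ⟨hp.ne_zero⟩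
  have hfd : FiniteDimensional M M' := Module.finite_of_finrank_pos (by rw [hdeg]; exact hp.pos)
  have hcyc : IsCyclic (M' ≃ₐ[M] M') :=
    isCyclic_of_prime_card (p := p) (by rw [IsGalois.card_aut_eq_finrank, hdeg])
  obtain ⟨θ, ⟨α₀, hα₀⟩, hθtop⟩ := exists_root_adjoin_eq_top_of_isCyclic M M'
    ⟨ζ, by rw [hdeg, mem_primitiveRoots hp.pos]; exact hζ⟩
  rw [hdeg] at hα₀
  have hθ0 : θ ≠ 0 := by
    rintro rfl
    have h1 : Module.finrank M M' = 1 := by
      have h2 : IntermediateField.adjoin M {(0 : M')} = ⊥ := IntermediateField.adjoin_zero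
      rw [h2] at hθtop
      rw [← IntermediateField.finrank_top', ← hθtop, IntermediateField.finrank_bot]
    rw [hdeg] at h1
    exact hp.one_lt.ne' h1
  have hα₀0 : α₀ ≠ 0 := by
    rintro rfl
    rw [map_zero] at hα₀
    exact pow_ne_zero p hθ0 hα₀.symm
  obtain ⟨a, b, hb, hab⟩ := EX.exists_int_mul_pow p hp.pos α₀
  obtain ⟨u, d, hd, hud⟩ := EX.exists_int_mul_pow p hp.pos (y : M)
  have hb' : (b : M) ≠ 0 := by simpa using hb
  have hd' : (d : M) ≠ 0 := by simpa using hd
  have ha' : (a : M) ≠ 0 := by rw [hab]; exact mul_ne_zero hα₀0 (pow_ne_zero _ hb')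
  have hu' : (u : M) ≠ 0 := by rw [hud]; exact mul_ne_zero y.ne_zero (pow_ne_zero _ hd')
  have ha0 : a ≠ 0 := by rintro rfl; simp at ha'
  have hu0 : u ≠ 0 := by rintro rfl; simp at hu'
  let θ' : M' := θ * algebraMap M M' b
  have hθ' : θ' ^ p = algebraMap M M' (a : M) := by
    rw [hab, map_mul, map_pow, hα₀, mul_pow]
  have hθ'0 : θ' ≠ 0 := mul_ne_zero hθ0 (by simpa using hb')
  have hgen : ∀ σ : M' ≃ₐ[M] M', σ θ' = θ' → σ = 1 := by
    intro σ hσ
    have h1 : σ θ = θ := by
      have h2 : σ θ' = σ θ * algebraMap M M' b := by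
        simp only [θ', map_mul, AlgEquiv.commutes]
      rw [h2] at hσ
      exact mul_right_cancel₀ (by simpa using hb') hσ
    have hadj : Algebra.adjoin M {θ} = ⊤ := by
      rw [← IntermediateField.adjoin_simple_toSubalgebra_of_isAlgebraic
        (IsAlgebraic.of_finite M θ), hθtop, IntermediateField.top_toSubalgebra]
    have h3 : (σ : M' →ₐ[M] M') = (AlgHom.id M M') := by
      apply AlgHom.ext_of_adjoin_eq_top hadj
      intro x hx
      rw [Set.mem_singleton_iff.mp hx]
      simpa using h1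
    ext x
    have := congrArg (fun f : M' →ₐ[M] M' => f x) h3
    simpa using this
  have hcond : ∀ (j : ℕ) (c : M), c ^ p ≠ (u : M) * (a : M) ^ j := by
    intro j c hc
    apply hy (algebraMap M M' c / (θ' ^ j * algebraMap M M' d))
    have h1 : algebraMap M M' (y : M) = algebraMap M M' (u : M) / (algebraMap M M' (d : M)) ^ p := by
      rw [hud, map_mul, map_pow, mul_div_assoc, div_self (pow_ne_zero _ (by simpa using hd')),
        mul_one]
    rw [h1, div_pow, mul_pow, ← pow_mul, mul_comm j p, pow_mul, hθ', ← map_pow, hc, map_mul, map_pow]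
    have h2 : algebraMap M M' (a : M) ^ j ≠ 0 := pow_ne_zero _ (by simpa using ha')
    have h3 : algebraMap M M' (d : M) ^ p ≠ 0 := pow_ne_zero _ (by simpa using hd')
    field_simp
  have hinf := EX1.infinite_residue_nonresidue hp hζ.toInteger_isPrimitiveRoot a u hcond
  have hX : (p : 𝓞 M) * a * u * d ≠ 0 :=
    mul_ne_zero (mul_ne_zero (mul_ne_zero (by exact_mod_cast hp.ne_zero) ha0) hu0) hd
  obtain ⟨w, hw, hwbad⟩ := (hinf.sdiff (hS₀.union (EX1.finite_primes_containing hX))).nonempty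
  obtain ⟨⟨t, ht⟩, hnon⟩ := hw
  have hwS : w ∉ S₀ := fun h => hwbad (Or.inl h)
  have hwX : (p : 𝓞 M) * a * u * d ∉ w.asIdeal := fun h => hwbad (Or.inr h)
  have hwd : d ∉ w.asIdeal := fun h => hwX (Ideal.mul_mem_left _ _ h)
  have hwu : u ∉ w.asIdeal := fun h => hwX (Ideal.mul_mem_right _ _ (Ideal.mul_mem_left _ _ h))
  have hwa : a ∉ w.asIdeal := fun h =>
    hwX (Ideal.mul_mem_right _ _ (Ideal.mul_mem_right _ _ (Ideal.mul_mem_left _ _ h)))
  have hwp : ¬ Over w p := fun h =>
    hwX (Ideal.mul_mem_right _ _ (Ideal.mul_mem_right _ _ (Ideal.mul_mem_right _ _ h)))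
  let αu : Mˣ := Units.mk0 (a : M) ha'
  let du : Mˣ := Units.mk0 (d : M) hd'
  refine ⟨w, hwS, ?_, hwp, ?_, ?_⟩
  · exact split_of_mem_LP p ζ hζ θ' αu hθ' hgen w
      (EX.mem_LP_of_residue p ζ hζ w hwp αu a rfl hwa t ht)
  · rw [mem_UD_iff]
    have h1 := ord_eq_zero_of_not_mem w hwu
    rw [hud, ord_mul w y.ne_zero (pow_ne_zero _ hd'), ord_pow, ord_eq_zero_of_not_mem w hwd] at h1
    simpa using h1
  · intro hyLP
    apply hnon
    refine EX.residue_of_mem_LP p ζ hζ w hwp (y * du ^ p) u ?_ hwu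
      (mul_mem hyLP (pow_mem_LP p ζ w du))
    rw [hud]
    simp [du]


theorem exists_T_gen (p : ℕ) [Fact p.Prime] (hp2 : p ≠ 2) (ζ : M) (hζ : IsPrimitiveRoot ζ p)
    [IsGalois M M'] (hdeg : Module.finrank M M' = p)
    (S : Set (Pl M)) (hS : S.Finite)
    (θ : M') (α : Mˣ) (hα : α ∈ SU S) (hθ : θ ^ p = algebraMap M M' α)
    (hθM : ∀ c : M, algebraMap M M' c ≠ θ) :
    ∃ T : Set (Pl M), T.Finite ∧ Disjoint T S ∧
      T.ncard + 1 = InfinitePlace.nrComplexPlaces M + S.ncard ∧
      (∀ w ∈ T, Split M' w ∧ ¬ Over w p) ∧ SurjOn p ζ S T := by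
  classical
  have hp : p.Prime := Fact.out
  have hfd : FiniteDimensional M M' := Module.finite_of_finrank_pos (by rw [hdeg]; exact hp.pos)
  set s := InfinitePlace.nrComplexPlaces M + S.ncard with hs
  set B : Subgroup Mˣ := (SU S).map (powMonoidHom p : Mˣ →* Mˣ) with hB
  have hBidx : B.relIndex (SU S) = p ^ s := relIndex_pow_SU p hp2 ζ hζ S hS
  set A' : Subgroup Mˣ := Subgroup.zpowers α ⊔ PW p Mˣ with hA'
  set A : Subgroup Mˣ := A' ⊓ SU S with hA
  have hASU : A ≤ SU S := inf_le_right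
  have hBA : B ≤ A := by
    rintro x ⟨c, hc, rfl⟩
    refine ⟨Subgroup.mem_sup_right ⟨c, rfl⟩, ?_⟩
    exact (SU S).pow_mem hc p
  have hαA : α ∈ A := ⟨Subgroup.mem_sup_left (Subgroup.mem_zpowers α), hα⟩
  have hBAidx : B.relIndex A ≤ p := by
    refine TSelect.relIndex_le_of_cover B A α p hαA ?_
    rintro a ⟨ha', haS⟩
    obtain ⟨x, hx, z, ⟨c, rfl⟩, rfl⟩ := Subgroup.mem_sup.1 ha'
    obtain ⟨n, rfl⟩ := Subgroup.mem_zpowers_iff.1 hx
    have hcS : c ∈ SU S := by
      refine TSelect.mem_SU_of_pow_mem S hp.ne_zero ?_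
      have h1 := (SU S).mul_mem ((SU S).inv_mem ((SU S).zpow_mem hα n)) haS
      simpa using h1
    have hp0 : (p : ℤ) ≠ 0 := by exact_mod_cast hp.ne_zero
    have hpos : (0 : ℤ) < p := by exact_mod_cast hp.pos
    refine ⟨(n % p).toNat, ?_, ?_⟩
    · have h1 := Int.emod_lt_of_pos n hpos
      have h2 := Int.emod_nonneg n hp0
      omega
    · refine ⟨α ^ (n / p) * c, (SU S).mul_mem ((SU S).zpow_mem hα _) hcS, ?_⟩
      have h2 := Int.emod_nonneg n hp0
      have h3 : α ^ (n % p).toNat = α ^ (n % (p : ℤ)) := by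
        rw [← zpow_natCast, Int.toNat_of_nonneg h2]
      rw [h3]
      show (α ^ (n / p) * c) ^ p = _
      have h4 : α ^ n = α ^ (n % (p : ℤ)) * (α ^ (n / (p : ℤ))) ^ p := by
        rw [← zpow_natCast, ← zpow_mul, ← zpow_add]
        congr 1
        rw [mul_comm]
        exact (Int.emod_add_mul_ediv n p).symm
      rw [h4, mul_pow]
      show _ = _ * (_ * c ^ p)
      group
  have key : ∀ (H : Subgroup Mˣ) (k : ℕ), H ≤ SU S → H.relIndex (SU S) ≠ 0 →
      H.relIndex (SU S) ≤ p ^ k → k + 2 ≤ s → ∃ y ∈ H, y ∉ A' := by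
    intro H k hH h0 hle hk
    by_contra hcon
    push Not at hcon
    have hHA : H ≤ A := fun x hx => ⟨hcon x hx, hH hx⟩
    have h1 : A.relIndex (SU S) ≤ p ^ k := (Subgroup.relIndex_le_of_le_left hHA h0).trans hle
    have h2 := Subgroup.relIndex_mul_relIndex B A (SU S) hBA hASU
    rw [hBidx] at h2
    have h3 : p ^ s ≤ p ^ (k + 1) := by
      rw [← h2, pow_succ, mul_comm]
      exact Nat.mul_le_mul h1 hBAidx
    have h4 := (Nat.pow_le_pow_iff_right hp.one_lt).1 h3
    omega
  have ind : ∀ k, k + 1 ≤ s → ∃ (T : Finset (Pl M)) (H : Subgroup Mˣ), T.card = k ∧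
      (∀ w ∈ T, w ∉ S) ∧ (∀ w ∈ T, Split M' w ∧ ¬ Over w p) ∧ SurjOn p ζ S (↑T : Set (Pl M)) ∧
      H ≤ SU S ∧ (∀ u ∈ H, ∀ w ∈ T, u ∈ LP p ζ w) ∧ H.relIndex (SU S) ≠ 0 ∧
      H.relIndex (SU S) ≤ p ^ k := by
    intro k
    induction k with
    | zero =>
      intro _
      refine ⟨∅, SU S, rfl, by simp, by simp, ?_, le_rfl, by simp, ?_, ?_⟩
      · intro c _
        exact ⟨1, (SU S).one_mem, by simp⟩
      · rw [Subgroup.relIndex_self]; exact one_ne_zero
      · rw [Subgroup.relIndex_self]; simp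
    | succ k ih =>
      intro hk
      obtain ⟨T, H, hcard, hTS, hTsplit, hsurj, hHS, hHLP, hH0, hHle⟩ := ih (by omega)
      obtain ⟨y, hyH, hyA⟩ := key H k hHS hH0 hHle (by omega)
      have hy : ∀ z : M', z ^ p ≠ algebraMap M M' y := by
        intro z hz
        obtain ⟨m, c, hmc⟩ := TSelect.exists_eq_pow_mul_pow p hdeg θ (α : M) α.ne_zero hθ hθM
          (y : M) z hz
        have hc0 : c ≠ 0 := by
          rintro rfl
          rw [zero_pow hp.ne_zero, mul_zero] at hmc
          exact y.ne_zero hmc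
        apply hyA
        have h1 : y = α ^ m * (Units.mk0 c hc0) ^ p := by
          apply Units.ext
          simpa using hmc
        rw [h1]
        exact Subgroup.mul_mem_sup (Subgroup.npow_mem_zpowers α m) ⟨Units.mk0 c hc0, rfl⟩
      obtain ⟨w, hwS₀, hwsplit, hwp, hyUD, hyLP⟩ := exists_split_nonresidue_gen p ζ hζ hdeg y hy
        (S ∪ (↑T : Set (Pl M))) (hS.union T.finite_toSet)
      have hwS : w ∉ S := fun h => hwS₀ (Or.inl h)
      have hwT : w ∉ T := fun h => hwS₀ (Or.inr h)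
      have hidx : (LP p ζ w).relIndex (UD w) = p := LP_relIndex_UD p ζ hζ w hwp
      have hidx0 : (LP p ζ w).relIndex (SU S) ≠ 0 := by
        intro h
        have := Subgroup.relIndex_eq_zero_of_le_right (TSelect.SU_le_UD S hwS) h
        rw [hidx] at this
        exact hp.ne_zero this
      have hidxle : (LP p ζ w).relIndex (SU S) ≤ p := by
        have := Subgroup.relIndex_le_of_le_right (H := LP p ζ w) (TSelect.SU_le_UD S hwS)
          (by rw [hidx]; exact hp.ne_zero)
        rwa [hidx] at this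
      refine ⟨insert w T, H ⊓ LP p ζ w, ?_, ?_, ?_, ?_, inf_le_left.trans hHS, ?_, ?_, ?_⟩
      · rw [Finset.card_insert_of_notMem hwT, hcard]
      · intro v hv
        rcases Finset.mem_insert.1 hv with rfl | hv
        · exact hwS
        · exact hTS v hv
      · intro v hv
        rcases Finset.mem_insert.1 hv with rfl | hv
        · exact ⟨hwsplit, hwp⟩
        · exact hTsplit v hv
      · intro c hc
        obtain ⟨u0, hu0, hu0T⟩ := hsurj c (fun v hv => hc v (by simp [Finset.mem_coe.1 hv]))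
        have hd : c w / u0 ∈ UD w :=
          (UD w).div_mem (hc w (by simp)) (TSelect.SU_le_UD S hwS hu0)
        obtain ⟨n, hn⟩ := TSelect.exists_zpow_div_mem (LP p ζ w) (UD w) hidx hyUD hyLP hd
        refine ⟨u0 * y ^ n, (SU S).mul_mem hu0 ((SU S).zpow_mem (hHS hyH) n), ?_⟩
        intro v hv
        rcases Finset.mem_insert.1 (Finset.mem_coe.1 hv) with rfl | hv
        · have h1 : u0 * y ^ n / c v = y ^ n / (c v / u0) := by
            rw [div_div_eq_mul_div, mul_comm]
          rw [h1]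
          exact hn
        · have h1 : u0 * y ^ n / c v = (u0 / c v) * y ^ n := by
            rw [div_mul_eq_mul_div]
          rw [h1]
          exact (LP p ζ v).mul_mem (hu0T v hv) ((LP p ζ v).zpow_mem (hHLP y hyH v hv) n)
      · intro u hu v hv
        rcases Finset.mem_insert.1 hv with rfl | hv
        · exact hu.2
        · exact hHLP u hu.1 v hv
      · exact Subgroup.relIndex_inf_ne_zero hH0 hidx0
      · refine (Subgroup.relIndex_inf_le).trans ?_
        rw [pow_succ]
        exact Nat.mul_le_mul hHle hidxle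
  have hs1 : 1 ≤ s := by
    have h1 := finrank_eq_two_mul p hp2 ζ hζ
    have h2 : 0 < Module.finrank ℚ M := Module.finrank_pos
    omega
  obtain ⟨T, H, hcard, hTS, hTsplit, hsurj, -⟩ := ind (s - 1) (by omega)
  refine ⟨↑T, T.finite_toSet, ?_, ?_, fun w hw => hTsplit w hw, hsurj⟩
  · rw [Set.disjoint_left]
    exact fun w hw => hTS w hw
  · rw [Set.ncard_coe_finset, hcard]
    omega


end Fermat.Agent.PT.Arith
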