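/-
S55 G-ARITH, leaf `HNTGen`: the Hasse norm theorem for ARBITRARY cyclic extensions of degree `p`
(`ζ_p` in the base field), and the local norm index.
-/
import Fermat.Agent.PT.Arith.SIGen
import Fermat.Agent.PT.Arith.TSelectGen
import Fermat.Agent.PT.Arith.NLSplit
import Fermat.Agent.PT.Arith.NLNeTop
import Fermat.Agent.CFT.FI

set_option autoImplicit false
set_option linter.unusedSectionVars false

namespace Fermat.Agent.PT.Arith

open Fermat.Agent.CFT IsDedekindDomain NumberField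

variable {M : Type*} [Field M] [NumberField M] {M' : Type*} [Field M'] [NumberField M']
  [Algebra M M']

namespace HNTGen

/-- a Kummer generator generates. -/
theorem hgen_of_not_mem (p : ℕ) [Fact p.Prime] [IsGalois M M'] (hdeg : Module.finrank M M' = p)
    (θ : M') (hθM : ∀ c : M, algebraMap M M' c ≠ θ) : ∀ σ : M' ≃ₐ[M] M', σ θ = θ → σ = 1 := by
  have hcard : Nat.card (M' ≃ₐ[M] M') = p := by rw [IsGalois.card_aut_eq_finrank, hdeg]
  intro σ hσ
  by_contra hne
  have htop' : Subgroup.zpowers σ = ⊤ := zpowers_eq_top_of_prime_card hcard hne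
  have hle : Subgroup.zpowers σ ≤ MulAction.stabilizer (M' ≃ₐ[M] M') θ := by
    rw [Subgroup.zpowers_le]
    exact hσ
  have hall : ∀ τ : M' ≃ₐ[M] M', τ θ = θ := by
    intro τ
    have : τ ∈ Subgroup.zpowers σ := by rw [htop']; trivial
    exact hle this
  obtain ⟨c, hc⟩ := (IsGalois.mem_range_algebraMap_iff_fixed θ).mpr hall
  exact hθM c hc

/-- product of numbers divisible by `p`. -/
theorem pow_card_dvd_prod {ι : Type*} (I : Finset ι) (f : ι → ℕ) (p : ℕ) (h : ∀ i ∈ I, p ∣ f i) :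
    p ^ I.card ∣ ∏ i ∈ I, f i := by
  rw [← Finset.prod_const]
  exact Finset.prod_dvd_prod_of_dvd _ _ h

theorem eq_of_prod_eq_pow_card {ι : Type*} (I : Finset ι) (f : ι → ℕ) (p : ℕ) (hp : 0 < p)
    (h : ∀ i ∈ I, p ∣ f i) (hprod : ∏ i ∈ I, f i = p ^ I.card) : ∀ i ∈ I, f i = p := by
  classical
  have h1 : ∏ i ∈ I, f i = p ^ I.card * ∏ i ∈ I, (f i / p) := by
    rw [← Finset.prod_const, ← Finset.prod_mul_distrib]
    exact Finset.prod_congr rfl fun i hi => (Nat.mul_div_cancel' (h i hi)).symm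
  rw [hprod] at h1
  have h2 : ∏ i ∈ I, (f i / p) = 1 := by
    have h3 : p ^ I.card * 1 = p ^ I.card * ∏ i ∈ I, (f i / p) := by rw [mul_one]; exact h1
    exact (Nat.eq_of_mul_eq_mul_left (pow_pos hp _) h3).symm
  intro i hi
  have h4 : f i / p ∣ 1 := by
    rw [← h2]
    exact Finset.dvd_prod_of_mem _ hi
  have h5 : f i / p = 1 := Nat.dvd_one.1 h4
  have := Nat.mul_div_cancel' (h i hi)
  rw [h5, mul_one] at this
  exact this.symm

end HNTGen

open HNTGen

/-- **Core.**  `S` finite, generating the class group, containing the places over `p` and the support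
of the Kummer generator `α`; `T` as in `exists_T_gen`.  With `U = SU (S ∪ T)`, `n` = number of non split
places in `S`:
  `p^n ≤ ∏_{v ∈ S} ν_v`      (`ν_v = 1` for split `v`, `p ∣ ν_v` otherwise: `NL_ne_top`, `dvd_index_NL`)
  `∏ ν_v ≤ [U : U ∩ ⨅ NL] p`  (`secondInequalityGen`)
  `[U : U ∩ ⨅ NL] ≤ [U : N U']` (`normSU ≤ U ⊓ ⨅ NL`)
  `[U : N U'] p ≤ p^n`         (`firstInequality`; unramified outside `S` by `unram_of_dvd_ord`; the places
                                 of `T` split).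
Hence equality everywhere (copy the end of the proof of `CFT.hasseNorm`). -/
theorem hnt_core (p : ℕ) [Fact p.Prime] (hp2 : p ≠ 2) (ζ : M) (hζ : IsPrimitiveRoot ζ p)
    [IsGalois M M'] (hdeg : Module.finrank M M' = p)
    (S T : Set (Pl M)) (hS : S.Finite) (hT : T.Finite) (hgen : GenCl S)
    (hSp : ∀ v : Pl M, Over v p → v ∈ S) (hdisj : Disjoint T S)
    (hcard : T.ncard + 1 = InfinitePlace.nrComplexPlaces M + S.ncard)
    (hTs : ∀ w ∈ T, Split M' w) (hsurj : SurjOn p ζ S T)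
    (θ : M') (α : Mˣ) (hα : α ∈ SU S) (hθ : θ ^ p = algebraMap M M' α)
    (hθM : ∀ c : M, algebraMap M M' c ≠ θ) :
    normSU M' (S ∪ T) = SU (S ∪ T) ⊓ ⨅ v ∈ S, NL M M' p ζ v ∧
      ∏ v ∈ hS.toFinset, (NL M M' p ζ v).index = p ^ ({v ∈ S | ¬ Split M' v}.ncard) := by
  classical
  have hp : p.Prime := Fact.out
  have hsub : S ⊆ S ∪ T := Set.subset_union_left
  have hgenθ := hgen_of_not_mem p hdeg θ hθM
  -- first inequality
  have hram : ∀ w : Pl M', w ∉ upSet M' (S ∪ T) → Unram M w := by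
    intro w hw
    obtain ⟨v, hv⟩ := exists_below (N := M) w
    have hvS : v ∉ S := fun h => hw ⟨v, Or.inl h, hv⟩
    refine unram_of_dvd_ord p ζ hζ θ α hθ hgenθ v w hv (fun h => hvS (hSp v h)) ?_
    rw [(mem_SU_iff S α).1 hα v hvS]
    exact dvd_zero _
  obtain ⟨hFI0, hFI⟩ := firstInequality p hp2 hdeg ζ hζ (S ∪ T) (hS.union hT) (hgen.mono hsub)
    hram θ α (SU_mono hsub hα) hθ hθM
  set Si : Set (Pl M) := {v ∈ S | ¬ Split M' v} with hSi
  have hSi' : {v ∈ S ∪ T | ¬ Split M' v} = Si := by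
    ext v
    simp only [hSi, Set.mem_ofPred_eq, Set.mem_union]
    constructor
    · rintro ⟨h1 | h1, h2⟩
      · exact ⟨h1, h2⟩
      · exact absurd (hTs v h1) h2
    · rintro ⟨h1, h2⟩
      exact ⟨Or.inl h1, h2⟩
  rw [hSi'] at hFI
  -- second inequality
  have hSI := secondInequalityGen (M' := M') p hp2 ζ hζ S T hS hT hgen hSp hdisj hcard hsurj
  -- the product
  set I : Finset (Pl M) := hS.toFinset.filter (fun v => ¬ Split M' v) with hI
  have hIcard : Si.ncard = I.card := by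
    have : Si = (I : Set (Pl M)) := by
      ext v
      simp [hSi, hI]
    rw [this, Set.ncard_coe_finset]
  have hprodI : ∏ v ∈ hS.toFinset, (NL M M' p ζ v).index = ∏ v ∈ I, (NL M M' p ζ v).index := by
    rw [hI, Finset.prod_filter]
    refine Finset.prod_congr rfl fun v _ => ?_
    by_cases hv : Split M' v
    · rw [if_neg (not_not.2 hv), NL_eq_top_of_split p ζ v hv, Subgroup.index_top]
    · rw [if_pos hv]
  have hdvd : ∀ v ∈ I, p ∣ (NL M M' p ζ v).index := by
    intro v hv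
    exact dvd_index_NL p ζ v (NL_ne_top p ζ hζ hdeg v (Finset.mem_filter.1 hv).2)
  have hP0 : ∏ v ∈ I, (NL M M' p ζ v).index ≠ 0 :=
    Finset.prod_ne_zero_iff.2 fun v _ => index_NL_ne_zero p ζ hζ v
  have hPle : p ^ I.card ≤ ∏ v ∈ I, (NL M M' p ζ v).index :=
    Nat.le_of_dvd (Nat.pos_of_ne_zero hP0) (pow_card_dvd_prod I _ p hdvd)
  set U := SU (S ∪ T) with hU
  set W := U ⊓ ⨅ v ∈ S, NL M M' p ζ v with hW
  set H := normSU M' (S ∪ T) with hH
  have hHW : H ≤ W := by
    rintro x ⟨z, hz, rfl⟩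
    refine Subgroup.mem_inf.mpr ⟨HNT.norm_mem_SU _ hz, ?_⟩
    refine Subgroup.mem_iInf.mpr fun v => Subgroup.mem_iInf.mpr fun _ => ?_
    exact NR_le_NL p ζ v (norm_mem_NR z)
  have hWU : W ≤ U := inf_le_left
  have hmul := Subgroup.relIndex_mul_relIndex H W U hHW hWU
  rw [hprodI] at hSI
  rw [hIcard] at hFI
  have hle : H.relIndex U ≤ W.relIndex U :=
    Nat.le_of_mul_le_mul_right ((hFI.trans hPle).trans hSI) hp.pos
  have hWU0 : W.relIndex U ≠ 0 := by
    intro h
    rw [h, mul_zero] at hmul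
    exact hFI0 hmul.symm
  have hone : H.relIndex W = 1 := by
    rw [← hmul] at hle
    have h1 : H.relIndex W * W.relIndex U ≤ 1 * W.relIndex U := by rwa [one_mul]
    have h2 := Nat.le_of_mul_le_mul_right h1 (Nat.pos_of_ne_zero hWU0)
    have h3 : H.relIndex W ≠ 0 := by
      intro h
      rw [h, zero_mul] at hmul
      exact hFI0 hmul.symm
    omega
  have hWH : W ≤ H := Subgroup.relIndex_eq_one.mp hone
  refine ⟨le_antisymm hHW hWH, ?_⟩
  rw [hprodI, hIcard]
  apply le_antisymm _ hPle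
  rw [hone, one_mul] at hmul
  rw [hmul] at hSI
  exact hSI.trans hFI

/-- the common set-up: a good pair `(S, T)` containing a given finite set. -/
theorem exists_good_sets (p : ℕ) [Fact p.Prime] (hp2 : p ≠ 2) (ζ : M) (hζ : IsPrimitiveRoot ζ p)
    [IsGalois M M'] (hdeg : Module.finrank M M' = p) (S₀ : Set (Pl M)) (hS₀ : S₀.Finite) :
    ∃ (S T : Set (Pl M)) (hS : S.Finite), S₀ ⊆ S ∧
      normSU M' (S ∪ T) = SU (S ∪ T) ⊓ ⨅ v ∈ S, NL M M' p ζ v ∧
      ∏ v ∈ hS.toFinset, (NL M M' p ζ v).index = p ^ ({v ∈ S | ¬ Split M' v}.ncard) := by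
  have hp : p.Prime := Fact.out
  obtain ⟨θ, α, hθ, hθM⟩ := HNT.exists_kummer (M' := M') p ζ hζ hdeg
  have hS₁ : ({v : Pl M | Over v p} ∪ {v : Pl M | ord v (α : M) ≠ 0} ∪ S₀).Finite :=
    ((finite_over p hp.ne_zero).union (finite_ord_ne_zero α.ne_zero)).union hS₀
  obtain ⟨S, hS₁S, hS, hgen⟩ := exists_GenCl _ hS₁
  have hSp : ∀ v : Pl M, Over v p → v ∈ S := fun v hv => hS₁S (Or.inl (Or.inl hv))
  have hα : α ∈ SU S := by
    rw [mem_SU_iff]
    intro v hv
    by_contra h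
    exact hv (hS₁S (Or.inl (Or.inr h)))
  obtain ⟨T, hT, hdisj, hcard, hTsplit, hsurj⟩ :=
    exists_T_gen p hp2 ζ hζ hdeg S hS θ α hα hθ hθM
  obtain ⟨h1, h2⟩ := hnt_core p hp2 ζ hζ hdeg S T hS hT hgen hSp hdisj hcard
    (fun w hw => (hTsplit w hw).1) hsurj θ α hα hθ hθM
  exact ⟨S, T, hS, fun v hv => hS₁S (Or.inr hv), h1, h2⟩

/-- **Hasse norm theorem**, cyclic of degree `p`, arbitrary ramification. -/
theorem hasseNormGen (p : ℕ) [Fact p.Prime] (hp2 : p ≠ 2) (ζ : M) (hζ : IsPrimitiveRoot ζ p)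
    [IsGalois M M'] (hdeg : Module.finrank M M' = p)
    (β : Mˣ) (hβ : ∀ v : Pl M, β ∈ NL M M' p ζ v) : β ∈ NR M M' := by
  obtain ⟨S, T, hS, hsub, h1, -⟩ := exists_good_sets (M' := M') p hp2 ζ hζ hdeg
    {v : Pl M | ord v (β : M) ≠ 0} (finite_ord_ne_zero β.ne_zero)
  have hβS : β ∈ SU S := by
    rw [mem_SU_iff]
    intro v hv
    by_contra h
    exact hv (hsub h)
  have hβW : β ∈ SU (S ∪ T) ⊓ ⨅ v ∈ S, NL M M' p ζ v := by
    refine Subgroup.mem_inf.mpr ⟨SU_mono Set.subset_union_left hβS, ?_⟩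
    exact Subgroup.mem_iInf.mpr fun v => Subgroup.mem_iInf.mpr fun _ => hβ v
  rw [← h1] at hβW
  obtain ⟨z, -, hz⟩ := hβW
  exact ⟨z, hz⟩

/-- **Local norm index** `= p` at every non split place. -/
theorem index_NL_eq (p : ℕ) [Fact p.Prime] (hp2 : p ≠ 2) (ζ : M) (hζ : IsPrimitiveRoot ζ p)
    [IsGalois M M'] (hdeg : Module.finrank M M' = p) (v : Pl M) (hns : ¬ Split M' v) :
    (NL M M' p ζ v).index = p := by
  classical
  have hp : p.Prime := Fact.out
  obtain ⟨S, T, hS, hsub, -, h2⟩ := exists_good_sets (M' := M') p hp2 ζ hζ hdeg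
    {v} (Set.finite_singleton v)
  set I : Finset (Pl M) := hS.toFinset.filter (fun v => ¬ Split M' v) with hI
  have hIcard : {v ∈ S | ¬ Split M' v}.ncard = I.card := by
    have : {v ∈ S | ¬ Split M' v} = (I : Set (Pl M)) := by
      ext v
      simp [hI]
    rw [this, Set.ncard_coe_finset]
  have hprodI : ∏ v ∈ hS.toFinset, (NL M M' p ζ v).index = ∏ v ∈ I, (NL M M' p ζ v).index := by
    rw [hI, Finset.prod_filter]
    refine Finset.prod_congr rfl fun v _ => ?_
    by_cases hv : Split M' v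
    · rw [if_neg (not_not.2 hv), NL_eq_top_of_split p ζ v hv, Subgroup.index_top]
    · rw [if_pos hv]
  have hdvd : ∀ v ∈ I, p ∣ (NL M M' p ζ v).index := by
    intro v hv
    exact dvd_index_NL p ζ v (NL_ne_top p ζ hζ hdeg v (Finset.mem_filter.1 hv).2)
  rw [hprodI, hIcard] at h2
  refine eq_of_prod_eq_pow_card I _ p hp.pos hdvd h2 v ?_
  rw [hI, Finset.mem_filter]
  exact ⟨hS.mem_toFinset.2 (hsub rfl), hns⟩

theorem NL_eq_PD_of_inert (p : ℕ) [Fact p.Prime] (hp2 : p ≠ 2) (ζ : M) (hζ : IsPrimitiveRoot ζ p)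
    [IsGalois M M'] (hdeg : Module.finrank M M' = p) {v : Pl M} {w : Pl M'} (hw : Above w v)
    (hu : Unram M w) (hns : ¬ Split M' v) : NL M M' p ζ v = PD p v := by
  have hp : p.Prime := Fact.out
  have hle : NL M M' p ζ v ≤ PD p v :=
    NL_le_PD_of_ramificationIdx_eq_one p ζ hdeg hw (ramificationIdx_eq_one_of_unram hw hu) hns
  have h1 := Subgroup.relIndex_mul_index hle
  rw [index_NL_eq p hp2 ζ hζ hdeg v hns] at h1
  have h2 : (PD p v).index ≠ 1 := fun h => PD_ne_top p v (Subgroup.index_eq_one.1 h)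
  have h3 : (PD p v).index = p := by
    rcases (Nat.dvd_prime hp).1 ⟨_, (mul_comm _ _).trans h1 |>.symm⟩ with h | h
    · exact absurd h h2
    · exact h
  rw [h3] at h1
  have h4 : (NL M M' p ζ v).relIndex (PD p v) = 1 := by
    have : (NL M M' p ζ v).relIndex (PD p v) * p = 1 * p := by rw [one_mul]; exact h1
    exact Nat.eq_of_mul_eq_mul_right hp.pos this
  exact le_antisymm hle (Subgroup.relIndex_eq_one.1 h4)

/-- At an unramified place the units are local norms (split: `NL = ⊤`; inert: `NL ≤ PD`, both of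
index `p`, so `NL = PD ≥ UD`). -/
theorem UD_le_NL_of_unram (p : ℕ) [Fact p.Prime] (hp2 : p ≠ 2) (ζ : M) (hζ : IsPrimitiveRoot ζ p)
    [IsGalois M M'] (hdeg : Module.finrank M M' = p) {v : Pl M} {w : Pl M'} (hw : Above w v)
    (hu : Unram M w) : UD v ≤ NL M M' p ζ v := by
  by_cases hs : Split M' v
  · rw [NL_eq_top_of_split p ζ v hs]
    exact le_top
  · rw [NL_eq_PD_of_inert p hp2 ζ hζ hdeg hw hu hs]
    intro x hx
    rw [mem_PD_iff, (mem_UD_iff v x).1 hx]
    exact dvd_zero _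

end Fermat.Agent.PT.Arith
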