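/-
S55 G-ARITH, leaf `FAArith`: arithmetic half of (FA): elements which are local norms outside `S` realise
all families of local classes at `S` up to index `p`.
-/
import Fermat.Agent.PT.Arith.HNTGen

set_option autoImplicit false
set_option linter.unusedSectionVars false

namespace Fermat.Agent.PT.Arith

open Fermat.Agent.CFT IsDedekindDomain NumberField

variable {M : Type*} [Field M] [NumberField M] {M' : Type*} [Field M'] [NumberField M']
  [Algebra M M']

/-- pure group theory: `[G:P][G:Q] ≤ [U : U∩P∩Q] c` ⟹ `[G:P] ≤ [U∩Q : U∩Q∩P] c`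
(`[U : U∩P∩Q] = [U : U∩Q][U∩Q : U∩Q∩P]`, `[U : U∩Q] ≤ [G:Q]`). -/
theorem index_le_of_index_mul_le {G : Type*} [CommGroup G] (U P Q : Subgroup G) (c : ℕ)
    (hQ : Q.index ≠ 0) (hP : P.index ≠ 0)
    (h : P.index * Q.index ≤ (U ⊓ (P ⊓ Q)).relIndex U * c) :
    P.index ≤ P.relIndex (U ⊓ Q) * c := by
  have h1 : (U ⊓ (P ⊓ Q)).relIndex (U ⊓ Q) * (U ⊓ Q).relIndex U = (U ⊓ (P ⊓ Q)).relIndex U :=
    Subgroup.relIndex_mul_relIndex _ _ _
      (le_inf inf_le_left (inf_le_right.trans inf_le_right)) inf_le_left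
  have h2 : (U ⊓ (P ⊓ Q)).relIndex (U ⊓ Q) = P.relIndex (U ⊓ Q) := by
    have e : U ⊓ (P ⊓ Q) = P ⊓ (U ⊓ Q) := by
      rw [inf_left_comm]
    rw [e, Subgroup.inf_relIndex_right]
  have h3 : (U ⊓ Q).relIndex U = Q.relIndex U := Subgroup.inf_relIndex_left _ _
  have h4 : Q.relIndex U ≤ Q.index :=
    Nat.le_of_dvd (Nat.pos_of_ne_zero hQ) (Subgroup.relIndex_dvd_index_of_normal Q U)
  rw [← h1, h2, h3] at h
  have h5 : P.index * Q.index ≤ (P.relIndex (U ⊓ Q) * c) * Q.index := by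
    calc P.index * Q.index ≤ P.relIndex (U ⊓ Q) * Q.relIndex U * c := h
      _ = (P.relIndex (U ⊓ Q) * c) * Q.relIndex U := by ring
      _ ≤ (P.relIndex (U ⊓ Q) * c) * Q.index := Nat.mul_le_mul_left _ h4
  exact Nat.le_of_mul_le_mul_right h5 (Nat.pos_of_ne_zero hQ)

/-- **(FA), arithmetic form.**  `S` finite, contains the places over `p` and the ramified places.
Proof.  Kummer generator `α`; `S' ⊇ S ∪ supp α` finite with `GenCl S'`; `T` from `exists_T_gen` for `S'`;
`U = SU (S' ∪ T)`, `P = ⨅_{v ∈ S} NL v`, `Q = ⨅_{v ∈ S' \ S} NL v`.  `secondInequalityGen` for `S'` and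
`index_iInf_eq_prod` give the hypothesis of `index_le_of_index_mul_le` with `c = p`.  Finally
`U ⊓ Q ≤ ⨅_{v ∉ S} NL v`  (`v ∈ S' \ S`: by `Q`; `v ∈ T`: split; otherwise `UD_le_NL_of_unram`), and
`relIndex` is monotone in the big group. -/
theorem FA_arith (p : ℕ) [Fact p.Prime] (hp2 : p ≠ 2) (ζ : M) (hζ : IsPrimitiveRoot ζ p)
    [IsGalois M M'] (hdeg : Module.finrank M M' = p)
    (S : Set (Pl M)) (hS : S.Finite) (hSp : ∀ v : Pl M, Over v p → v ∈ S)
    (hram : ∀ w : Pl M', w ∉ upSet M' S → Unram M w) :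
    ∏ v ∈ hS.toFinset, (NL M M' p ζ v).index ≤
      (⨅ v ∈ S, NL M M' p ζ v).relIndex (⨅ (v : Pl M) (_ : v ∉ S), NL M M' p ζ v) * p := by
  classical
  obtain ⟨θ, α, hθ, hθM⟩ := HNT.exists_kummer (M' := M') p ζ hζ hdeg
  have hS₀ : (S ∪ {v : Pl M | ord v (α : M) ≠ 0}).Finite :=
    hS.union (finite_ord_ne_zero α.ne_zero)
  obtain ⟨S', hS₀S', hS', hgen⟩ := exists_GenCl _ hS₀
  have hSS' : S ⊆ S' := Set.subset_union_left.trans hS₀S'
  have hα : α ∈ SU S' := by
    rw [mem_SU_iff]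
    intro v hv
    by_contra hne
    exact hv (hS₀S' (Or.inr hne))
  obtain ⟨T, hT, hdisj, hcard, hTs, hsurj⟩ :=
    exists_T_gen (M' := M') p hp2 ζ hζ hdeg S' hS' θ α hα hθ hθM
  have hSp' : ∀ v : Pl M, Over v p → v ∈ S' := fun v hv => hSS' (hSp v hv)
  have hSI := secondInequalityGen (M' := M') p hp2 ζ hζ S' T hS' hT hgen hSp' hdisj hcard hsurj
  set H : Pl M → Subgroup Mˣ := fun v => NL M M' p ζ v with hH
  have hopen : ∀ (F : Finset (Pl M)), ∀ v ∈ F, ∃ n : ℕ, PU v n ≤ H v :=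
    fun _ v _ => exists_PU_le_NL p ζ v
  set P : Subgroup Mˣ := ⨅ v ∈ S, H v with hPdef
  set Q : Subgroup Mˣ := ⨅ v ∈ S' \ S, H v with hQdef
  set U : Subgroup Mˣ := SU (S' ∪ T) with hU
  have hD : (S' \ S).Finite := hS'.subset Set.diff_subset
  have hPidx : P.index = ∏ v ∈ hS.toFinset, (H v).index := by
    rw [← index_iInf_eq_prod hS.toFinset H (hopen _)]
    simp only [Set.Finite.mem_toFinset, hPdef]
  have hQidx : Q.index = ∏ v ∈ hD.toFinset, (H v).index := by
    rw [← index_iInf_eq_prod hD.toFinset H (hopen _)]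
    simp only [Set.Finite.mem_toFinset, hQdef]
  have hne : ∀ v, (H v).index ≠ 0 := fun v => index_NL_ne_zero p ζ hζ v
  have hP0 : P.index ≠ 0 := by
    rw [hPidx]; exact Finset.prod_ne_zero_iff.2 fun v _ => hne v
  have hQ0 : Q.index ≠ 0 := by
    rw [hQidx]; exact Finset.prod_ne_zero_iff.2 fun v _ => hne v
  have hPQ : P ⊓ Q = ⨅ v ∈ S', H v := by
    apply le_antisymm
    · refine le_iInf₂ fun v hv => ?_
      by_cases hvS : v ∈ S
      · exact inf_le_left.trans (iInf₂_le v hvS)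
      · exact inf_le_right.trans (iInf₂_le v ⟨hv, hvS⟩)
    · refine le_inf (le_iInf₂ fun v hv => iInf₂_le v (hSS' hv))
        (le_iInf₂ fun v hv => iInf₂_le v hv.1)
  have hprod : P.index * Q.index = ∏ v ∈ hS'.toFinset, (H v).index := by
    rw [hPidx, hQidx, ← Finset.prod_union]
    · congr 1
      ext v
      simp only [Finset.mem_union, Set.Finite.mem_toFinset, Set.mem_diff]
      constructor
      · rintro (h | h)
        · exact hSS' h
        · exact h.1
      · intro h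
        by_cases hvS : v ∈ S
        · exact Or.inl hvS
        · exact Or.inr ⟨h, hvS⟩
    · rw [Finset.disjoint_left]
      intro v h1 h2
      simp only [Set.Finite.mem_toFinset, Set.mem_diff] at h1 h2
      exact h2.2 h1
  have hmain : P.index ≤ P.relIndex (U ⊓ Q) * p := by
    apply index_le_of_index_mul_le U P Q p hQ0 hP0
    rw [hprod, hPQ]
    exact hSI
  have hle : U ⊓ Q ≤ ⨅ (v : Pl M) (_ : v ∉ S), H v := by
    refine le_iInf₂ fun v hvS => ?_
    by_cases hvS' : v ∈ S'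
    · exact inf_le_right.trans (iInf₂_le v ⟨hvS', hvS⟩)
    · by_cases hvT : v ∈ T
      · have : H v = ⊤ := NL_eq_top_of_split p ζ v (hTs v hvT).1
        rw [this]
        exact le_top
      · obtain ⟨w, hw⟩ := exists_above (N' := M') v
        have hwS : w ∉ upSet M' S := by
          rintro ⟨v', hv', hwv'⟩
          exact hvS (below_unique hw hwv' ▸ hv')
        refine inf_le_left.trans (le_trans ?_ (UD_le_NL_of_unram p hp2 ζ hζ hdeg hw (hram w hwS)))
        intro x hx
        rw [mem_UD_iff]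
        exact (mem_SU_iff _ x).1 hx v (by
          rintro (h | h)
          · exact hvS' h
          · exact hvT h)
  have hrel0 : P.relIndex (⨅ (v : Pl M) (_ : v ∉ S), H v) ≠ 0 := by
    intro h0
    have := Subgroup.relIndex_dvd_index_of_normal P (⨅ (v : Pl M) (_ : v ∉ S), H v)
    rw [h0, zero_dvd_iff] at this
    exact hP0 this
  rw [← hPidx]
  exact hmain.trans (Nat.mul_le_mul_right _ (Subgroup.relIndex_le_of_le_right hle hrel0))

end Fermat.Agent.PT.Arith
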