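/-
S55 G-ARITH, leaf `Isotropic`: an isotropic subgroup of a non degenerate pairing has at most the square
root of the order.  Pure algebra (imports only Mathlib).
-/
import Mathlib

set_option autoImplicit false

namespace Fermat.Agent.PT.Arith

/-- Linear algebra core: an isotropic subspace for a bilinear form with trivial left kernel has at
most half the dimension. -/
theorem two_mul_finrank_le_of_isotropic {K V : Type*} [Field K] [AddCommGroup V] [Module K V]
    [FiniteDimensional K V] (b : V →ₗ[K] V →ₗ[K] K) (hnd : ∀ x, (∀ z, b x z = 0) → x = 0)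
    (I : Submodule K V) (hI : ∀ x ∈ I, ∀ z ∈ I, b x z = 0) :
    2 * Module.finrank K I ≤ Module.finrank K V := by
  let g : V →ₗ[K] Module.Dual K I := I.dualRestrict.comp b.flip
  have hg : ∀ (v : V) (x : I), g v x = b x v := fun v x => rfl
  have hco : (LinearMap.range g).dualCoannihilator = ⊥ := by
    rw [eq_bot_iff]
    intro x hx
    rw [Submodule.mem_dualCoannihilator] at hx
    have : (x : V) = 0 := hnd x fun z => by
      have := hx (g z) (LinearMap.mem_range_self g z)
      rwa [hg] at this
    rw [Submodule.mem_bot]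
    exact Subtype.ext this
  have h1 := Subspace.finrank_add_finrank_dualCoannihilator_eq (LinearMap.range g)
  rw [hco, finrank_bot, add_zero] at h1
  have h2 : I ≤ LinearMap.ker g := by
    intro z hz
    rw [LinearMap.mem_ker]
    ext x
    rw [hg]
    exact hI x x.2 z hz
  have h3 := Submodule.finrank_mono h2
  have h4 := LinearMap.finrank_range_add_finrank_ker g
  omega

/-- The same for bi-additive maps on a finite `𝔽_p`-vector space, in terms of cardinalities. -/
theorem card_sq_le_of_isotropic (p : ℕ) [Fact p.Prime] {V : Type*} [AddCommGroup V]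
    [Module (ZMod p) V] [Finite V] (β : V →+ V →+ ZMod p) (hnd : ∀ x, (∀ z, β x z = 0) → x = 0)
    (I₀ : AddSubgroup V) (hI : ∀ x ∈ I₀, ∀ z ∈ I₀, β x z = 0) :
    (Nat.card I₀) ^ 2 ≤ Nat.card V := by
  let T : (V →+ ZMod p) →+ (V →ₗ[ZMod p] ZMod p) :=
    AddMonoidHom.mk' (fun f => f.toZModLinearMap p) (fun f g => by ext; simp)
  let b : V →ₗ[ZMod p] V →ₗ[ZMod p] ZMod p := AddMonoidHom.toZModLinearMap p (T.comp β)
  have hb : ∀ x z, b x z = β x z := fun x z => rfl
  have : FiniteDimensional (ZMod p) V := Module.Finite.of_finite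
  let I : Submodule (ZMod p) V := AddSubgroup.toZModSubmodule p I₀
  have hmain := two_mul_finrank_le_of_isotropic b hnd I hI
  have h1 : Nat.card V = p ^ Module.finrank (ZMod p) V := by
    rw [Module.natCard_eq_pow_finrank (K := ZMod p), Nat.card_zmod]
  have h2 : Nat.card I = p ^ Module.finrank (ZMod p) I := by
    rw [Module.natCard_eq_pow_finrank (K := ZMod p), Nat.card_zmod]
  have h3 : Nat.card I₀ = Nat.card I := rfl
  rw [h3, h1, h2, ← pow_mul]
  exact Nat.pow_le_pow_right (Fact.out : p.Prime).pos (by omega)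

/-- `V = X / P` is a finite `𝔽_p`-vector space (`x ^ p ∈ P` by `hnd`), `B` induces a bilinear form on `V`
with trivial left kernel, so `V → Hom(V, 𝔽_p)` is bijective and `V → Hom(I, 𝔽_p)` is onto for the image
`I` of `Sg`; its kernel contains `I`.  Hence `|I|² ≤ |V|`. -/
theorem isotropic_sq_le {X : Type*} [CommGroup X] (p : ℕ) [Fact p.Prime] (P Sg : Subgroup X)
    (hP : P.index ≠ 0) (B : X → X → ZMod p)
    (hBl : ∀ x y z, B (x * y) z = B x z + B y z) (hBr : ∀ x y z, B x (y * z) = B x y + B x z)
    (hPl : ∀ x ∈ P, ∀ z, B x z = 0) (hPr : ∀ x, ∀ z ∈ P, B x z = 0)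
    (hnd : ∀ x, (∀ z, B x z = 0) → x ∈ P)
    (hiso : ∀ x ∈ Sg, ∀ z ∈ Sg, B x z = 0) :
    (P.relIndex Sg) ^ 2 ≤ P.index := by
  classical
  have : P.FiniteIndex := ⟨hP⟩
  have hfin : Finite (X ⧸ P) := Subgroup.finite_quotient_of_finiteIndex
  -- `B` as a bi-additive map on `Additive X`
  let B₂ : X → (Additive X →+ ZMod p) := fun x =>
    AddMonoidHom.mk' (fun z => B x (Additive.toMul z)) (fun y z => hBr x _ _)
  let P' : AddSubgroup (Additive X) := Subgroup.toAddSubgroup P
  let V := Additive X ⧸ P'
  have hB1 : ∀ x : X, B x 1 = 0 := fun x => hPr x 1 P.one_mem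
  have hB1' : ∀ z : X, B 1 z = 0 := fun z => hPl 1 P.one_mem z
  have hBpow : ∀ (x z : X) (n : ℕ), B (x ^ n) z = n * B x z := by
    intro x z n
    induction n with
    | zero => simp [hB1']
    | succ n ih => rw [pow_succ, hBl, ih]; push_cast; ring
  have hpow : ∀ x : X, x ^ p ∈ P := fun x => hnd _ fun z => by
    rw [hBpow]; simp
  have hV : ∀ v : V, p • v = 0 := by
    intro v
    obtain ⟨x, rfl⟩ := QuotientAddGroup.mk_surjective v
    rw [← QuotientAddGroup.mk_nsmul, QuotientAddGroup.eq_zero_iff]
    exact hpow (Additive.toMul x)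
  let _ : Module (ZMod p) V := AddCommGroup.zmodModule hV
  -- lift in the second variable
  let B₃ : X → (V →+ ZMod p) := fun x =>
    QuotientAddGroup.lift P' (B₂ x) (fun z hz => hPr x _ hz)
  have hB₃ : ∀ (x : X) (z : Additive X), B₃ x (QuotientAddGroup.mk z) = B x (Additive.toMul z) :=
    fun x z => rfl
  let B₄ : Additive X →+ (V →+ ZMod p) :=
    AddMonoidHom.mk' (fun x => B₃ (Additive.toMul x)) (fun x y => by
      ext z
      exact hBl _ _ _)
  let B₅ : V →+ (V →+ ZMod p) := QuotientAddGroup.lift P' B₄ (fun x hx => by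
    ext z
    exact hPl _ hx _)
  have hB₅ : ∀ x z : Additive X, B₅ (QuotientAddGroup.mk x) (QuotientAddGroup.mk z)
      = B (Additive.toMul x) (Additive.toMul z) := fun x z => rfl
  have hfinV : Finite V := hfin
  let I₀ : AddSubgroup V := (Subgroup.toAddSubgroup Sg).map (QuotientAddGroup.mk' P')
  have hmain := card_sq_le_of_isotropic p B₅
    (by
      intro v hv
      obtain ⟨x, rfl⟩ := QuotientAddGroup.mk_surjective v
      rw [QuotientAddGroup.eq_zero_iff]
      exact hnd _ fun z => hv (QuotientAddGroup.mk (Additive.ofMul z)))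
    I₀
    (by
      rintro _ ⟨x, hx, rfl⟩ _ ⟨z, hz, rfl⟩
      exact hiso _ hx _ hz)
  have hcardV : P.index = Nat.card V := rfl
  have hcardI : P.relIndex Sg = Nat.card I₀ := by
    have h2 : P.relIndex Sg = Nat.card (Sg.map (QuotientGroup.mk' P)) := by
      conv_lhs => rw [← QuotientGroup.ker_mk' P]
      exact Subgroup.relIndex_ker _ _
    rw [h2]
    rfl
  rw [hcardV, hcardI]
  exact hmain

end Fermat.Agent.PT.Arith
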