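/-
S55 G-ARITH, leaf `FC2`: arithmetic half of (FC): `|Cl_S / p| ≤ |V_S / p|`, given local pairings which are
non degenerate modulo local `p`-th powers and satisfy reciprocity on `Σ_S`.
-/
import Fermat.Agent.PT.Arith.ClCountB
import Fermat.Agent.PT.Arith.Isotropic
import Fermat.Agent.PT.Arith.IndexProd
import Fermat.Agent.CFT.SI

set_option autoImplicit false
set_option linter.unusedSectionVars false

namespace Fermat.Agent.PT.Arith

open Fermat.Agent.CFT IsDedekindDomain NumberField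

variable {M : Type*} [Field M] [NumberField M]

/-- `B v` will be the local Hilbert pairing `(a,b) ↦ λ_v (κ a ∪ κ b)` at `v ∈ S`.
Proof.  `P = ⨅_{v ∈ S} LP v`, `Bt = ∑_{v ∈ S} B v`.  `Bt` has left kernel `P`: given `v₀`, `z₀` choose `z` with
`z / z₀ ∈ LP v₀`, `z ∈ LP v` for the other `v ∈ S` (`exists_unit_div_mem`), then `Bt x z = B v₀ x z₀`.
`isotropic_sq_le`: `[Σ_S : Σ_S ∩ P]² ≤ [Mˣ : P] ≤ p^(2(r₂+|S|))` (`SI.index_iInf_LP`).
`[Σ_S : PW] = [Σ_S : V_S][V_S : PW]` and `relIndex_PW_SigS`. -/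
theorem card_ClModP_le (p : ℕ) [Fact p.Prime] (hp2 : p ≠ 2) (ζ : M) (hζ : IsPrimitiveRoot ζ p)
    (S : Set (Pl M)) (hS : S.Finite) (hSp : ∀ v : Pl M, Over v p → v ∈ S)
    (B : Pl M → Mˣ → Mˣ → ZMod p)
    (hBl : ∀ v ∈ S, ∀ x y z, B v (x * y) z = B v x z + B v y z)
    (hBr : ∀ v ∈ S, ∀ x y z, B v x (y * z) = B v x y + B v x z)
    (hPl : ∀ v ∈ S, ∀ x ∈ LP p ζ v, ∀ z, B v x z = 0)
    (hPr : ∀ v ∈ S, ∀ x, ∀ z ∈ LP p ζ v, B v x z = 0)
    (hnd : ∀ v ∈ S, ∀ x, (∀ z, B v x z = 0) → x ∈ LP p ζ v)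
    (hrec : ∀ x ∈ SigS M p S, ∀ z ∈ SigS M p S, ∑ v ∈ hS.toFinset, B v x z = 0) :
    Nat.card (ClModP M p S) ≤ (PW p Mˣ).relIndex (VS p ζ S) := by
  classical
  have hpp : p.Prime := Fact.out
  set P : Subgroup Mˣ := ⨅ v ∈ S, LP p ζ v with hP
  have hmemP : ∀ x, x ∈ P ↔ ∀ v ∈ S, x ∈ LP p ζ v := by
    intro x
    simp [hP, Subgroup.mem_iInf]
  set Bt : Mˣ → Mˣ → ZMod p := fun x z => ∑ v ∈ hS.toFinset, B v x z with hBt
  have hB1 : ∀ v ∈ S, ∀ x, B v x 1 = 0 := by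
    intro v hv x
    have := hBr v hv x 1 1
    rw [one_mul] at this
    exact left_eq_add.mp this
  obtain ⟨hP0, hPle⟩ := SI.index_iInf_LP p hp2 ζ hζ S hS hSp
  have hiso := isotropic_sq_le p P (SigS M p S) hP0 Bt
    (fun x y z => by
      simp only [hBt]
      rw [← Finset.sum_add_distrib]
      exact Finset.sum_congr rfl fun v hv => hBl v (hS.mem_toFinset.1 hv) x y z)
    (fun x y z => by
      simp only [hBt]
      rw [← Finset.sum_add_distrib]
      exact Finset.sum_congr rfl fun v hv => hBr v (hS.mem_toFinset.1 hv) x y z)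
    (fun x hx z => Finset.sum_eq_zero fun v hv =>
      hPl v (hS.mem_toFinset.1 hv) x ((hmemP x).1 hx v (hS.mem_toFinset.1 hv)) z)
    (fun x z hz => Finset.sum_eq_zero fun v hv =>
      hPr v (hS.mem_toFinset.1 hv) x z ((hmemP z).1 hz v (hS.mem_toFinset.1 hv)))
    (fun x hx => by
      rw [hmemP]
      intro v₀ hv₀
      refine hnd v₀ hv₀ x fun z₀ => ?_
      obtain ⟨z, hz⟩ := exists_unit_div_mem hS.toFinset (fun v => LP p ζ v)
        (fun v _ => ⟨_, le_sup_left⟩) (fun v => if v = v₀ then z₀ else 1)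
      have h1 : ∀ v ∈ hS.toFinset, B v x z = if v = v₀ then B v₀ x z₀ else 0 := by
        intro v hv
        have hvS := hS.mem_toFinset.1 hv
        have h2 : z = (if v = v₀ then z₀ else 1) * (z / (if v = v₀ then z₀ else 1)) :=
          (mul_div_cancel _ _).symm
        rw [h2, hBr v hvS, hPr v hvS x _ (hz v hv), add_zero]
        split_ifs with h
        · rw [h]
        · exact hB1 v hvS x
      have h3 := hx z
      simp only [hBt] at h3
      rw [Finset.sum_congr rfl h1, Finset.sum_ite_eq' hS.toFinset v₀,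
        if_pos (hS.mem_toFinset.2 hv₀)] at h3
      exact h3)
    hrec
  set e := InfinitePlace.nrComplexPlaces M + S.ncard with he
  have h1 : P.relIndex (SigS M p S) ≤ p ^ e := by
    have h2 : (P.relIndex (SigS M p S)) ^ 2 ≤ (p ^ e) ^ 2 := by
      rw [← pow_mul, mul_comm e 2]
      exact hiso.trans hPle
    exact (Nat.pow_le_pow_iff_left two_ne_zero).1 h2
  have hVS : (VS p ζ S).relIndex (SigS M p S) = P.relIndex (SigS M p S) := by
    unfold VS
    rw [Subgroup.inf_relIndex_left]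
  have hPWVS : PW p Mˣ ≤ VS p ζ S := by
    rintro _ ⟨y, rfl⟩
    refine Subgroup.mem_inf.2 ⟨?_, ?_⟩
    · rw [mem_SigS_iff]
      intro v _
      show (p : ℤ) ∣ ord v (((y ^ p : Mˣ)) : M)
      have : y ^ p ∈ PD p v := LP_le_PD p ζ v (pow_mem_LP p ζ v y)
      exact this
    · exact (hmemP _).2 fun v _ => pow_mem_LP p ζ v y
  have hmul := Subgroup.relIndex_mul_relIndex (PW p Mˣ) (VS p ζ S) (SigS M p S) hPWVS inf_le_left
  rw [relIndex_PW_SigS p hp2 ζ hζ S hS, hVS] at hmul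
  have h4 : p ^ e * Nat.card (ClModP M p S) ≤ p ^ e * (PW p Mˣ).relIndex (VS p ζ S) := by
    rw [← hmul, mul_comm (p ^ e)]
    exact Nat.mul_le_mul_left _ h1
  exact Nat.le_of_mul_le_mul_left h4 (pow_pos hpp.pos e)

end Fermat.Agent.PT.Arith
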